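import Mathlib.GroupTheory.CosetCover
import Mathlib.RingTheory.Artinian.Algebra
import Mathlib.RingTheory.Nakayama
import Mathlib.FieldTheory.IsAlgClosed.Basic
import Mathlib.LinearAlgebra.Dual.Lemmas
import Mathlib.LinearAlgebra.Matrix.NonsingularInverse
import Mathlib.LinearAlgebra.Matrix.ToLin
import Mathlib.RingTheory.Adjoin.Basic

/-!
# A common kernel vector of commuting matrices

`exists_common_kernel`: commuting matrices all of whose integral combinations are singular have a
common kernel vector (and `exists_common_kernel_vecMul` one on the left).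
-/

set_option autoImplicit false

noncomputable section

namespace FLTAgent.HeckePoints

open Matrix
open scoped IsMulCommutative

variable {K : Type} [Field K] [CharZero K] {d : ℕ} {ι : Type} [Fintype ι]

/-- Commuting matrices all of whose integral combinations are singular have a common kernel
vector on the left. -/
theorem exists_common_kernel_vecMul (N : ι → Matrix (Fin d) (Fin d) K)
    (hc : ∀ i j, N i * N j = N j * N i)
    (hdet : ∀ u : ι → ℤ, (∑ i, u i • N i).det = 0) :
    ∃ w : Fin d → K, w ≠ 0 ∧ ∀ i, w ᵥ* N i = 0 := by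
  classical
  let B := Algebra.adjoin K (Set.range N)
  have : IsMulCommutative B := Algebra.isMulCommutative_adjoin K (by
    rintro _ ⟨i, rfl⟩ _ ⟨j, rfl⟩; exact hc i j)
  have : Module.Finite K B := Module.Finite.of_injective B.val.toLinearMap Subtype.val_injective
  have : IsArtinianRing B := IsArtinianRing.of_finite K B
  let n : ι → B := fun i => ⟨N i, Algebra.subset_adjoin ⟨i, rfl⟩⟩
  obtain ⟨m, hn⟩ : ∃ m : MaximalSpectrum B, ∀ i, n i ∈ m.asIdeal := by
    let comb : (ι → ℚ) → B := fun u => ∑ i, ((u i : K)) • n i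
    have hcomb_smul : ∀ (q : ℚ) (u : ι → ℚ),
        comb (q • u) = algebraMap K B (q : K) * comb u := fun q u => by
      simp only [comb, Pi.smul_apply, smul_eq_mul, Rat.cast_mul, mul_smul, Finset.mul_sum]
      exact Finset.sum_congr rfl fun i _ => Algebra.smul_def _ _
    let p : MaximalSpectrum B → Subspace ℚ (ι → ℚ) := fun m =>
      { carrier := {u | comb u ∈ m.asIdeal}
        zero_mem' := by simp [comb]
        add_mem' := fun {a b} ha hb => by
          have : comb (a + b) = comb a + comb b := by
            simp [comb, add_smul, Finset.sum_add_distrib]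
          rw [Set.mem_ofPred_eq, this]
          exact m.asIdeal.add_mem ha hb
        smul_mem' := fun q u hu => by
          rw [Set.mem_ofPred_eq, hcomb_smul]
          exact m.asIdeal.mul_mem_left _ hu }
    have hcov : ⋃ m, (p m : Set (ι → ℚ)) = Set.univ := by
      refine Set.eq_univ_of_forall fun u => ?_
      obtain ⟨D, hD0, z, hz⟩ : ∃ D : ℕ, D ≠ 0 ∧ ∃ z : ι → ℤ, ∀ i, (D : ℚ) * u i = z i := by
        refine ⟨∏ i, (u i).den, Finset.prod_ne_zero_iff.mpr fun i _ => (u i).den_nz,
          fun i => (∏ j ∈ Finset.univ.erase i, ((u j).den : ℤ)) * (u i).num, fun i => ?_⟩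
        rw [← Finset.mul_prod_erase Finset.univ (fun j => (u j).den) (Finset.mem_univ i)]
        push_cast
        linear_combination (∏ x ∈ Finset.univ.erase i, ((u x).den : ℚ)) * Rat.mul_den_eq_num (u i)
      have hnu : ¬ IsUnit (comb fun i => (z i : ℚ)) := fun hu => by
        have h2 : IsUnit ((comb fun i => (z i : ℚ) : B) : Matrix (Fin d) (Fin d) K) := hu.map B.val
        have h3 : ((comb fun i => (z i : ℚ) : B) : Matrix (Fin d) (Fin d) K) = ∑ i, z i • N i := by
          simp [comb, n, Int.cast_smul_eq_zsmul]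
        rw [h3, Matrix.isUnit_iff_isUnit_det, hdet] at h2
        exact not_isUnit_zero h2
      obtain ⟨m, hm, hmem⟩ := exists_max_ideal_of_mem_nonunits hnu
      refine Set.mem_iUnion.mpr ⟨⟨m, hm⟩, ?_⟩
      have e : u = (D : ℚ)⁻¹ • fun i => (z i : ℚ) := funext fun i => by
        rw [Pi.smul_apply, smul_eq_mul, ← hz i, inv_mul_cancel_left₀ (Nat.cast_ne_zero.mpr hD0)]
      rw [SetLike.mem_coe, e]
      exact (p ⟨m, hm⟩).smul_mem _ hmem
    obtain ⟨m, hm⟩ := Subspace.exists_eq_top_of_iUnion_eq_univ hcov
    refine ⟨m, fun i => ?_⟩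
    have h : Pi.single i (1 : ℚ) ∈ p m := hm ▸ Submodule.mem_top
    have h' : comb (Pi.single i 1) = n i := by
      simp only [comb]
      rw [Finset.sum_eq_single i (fun j _ hj => by simp [Pi.single_eq_of_ne hj]) (by simp)]
      simp
    exact h' ▸ h
  -- the sum of the images is proper
  have hsmul : ∀ (b : B) (v : Fin d → K), b • v = (b : Matrix (Fin d) (Fin d) K) *ᵥ v :=
    fun b v => rfl
  have hscal : ∀ (c : K) (v : Fin d → K), algebraMap K B c • v = c • v := fun c v => by
    rw [hsmul, Subalgebra.coe_algebraMap, Matrix.algebraMap_eq_diagonal]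
    funext a
    simp [Matrix.mulVec_diagonal]
  have : Module.Finite B (Fin d → K) := by
    refine ⟨⟨(Finset.univ : Finset (Fin d)).image (fun j => Pi.single j (1 : K)),
      eq_top_iff.mpr fun v _ => ?_⟩⟩
    rw [pi_eq_sum_univ' v]
    refine Submodule.sum_mem _ fun j _ => ?_
    rw [← hscal]
    exact Submodule.smul_mem _ _ (Submodule.subset_span (by simp))
  have hproper : (⨆ i, LinearMap.range (N i).mulVecLin) ≠ ⊤ := by
    intro htop
    have hle : (⊤ : Submodule B (Fin d → K)) ≤ m.asIdeal • ⊤ := fun v _ => by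
      have hv : v ∈ ⨆ i, LinearMap.range (N i).mulVecLin := htop ▸ Submodule.mem_top
      refine Submodule.iSup_induction (motive := fun x => x ∈ m.asIdeal • (⊤ : Submodule B _))
        _ hv (fun i x hx => ?_) (zero_mem _) (fun x y hx hy => add_mem hx hy)
      obtain ⟨w, rfl⟩ := hx
      rw [Matrix.mulVecLin_apply, show N i *ᵥ w = n i • w from (hsmul (n i) w).symm]
      exact Submodule.smul_mem_smul (hn i) Submodule.mem_top
    obtain ⟨r, hr1, hr⟩ := Submodule.exists_sub_one_mem_and_smul_eq_zero_of_fg_of_le_smul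
      m.asIdeal (⊤ : Submodule B (Fin d → K)) Module.Finite.fg_top hle
    have hr0 : r = 0 := Subtype.ext (Matrix.ext_of_mulVec_single fun j => by
      rw [← hsmul r, hr (Pi.single j 1) Submodule.mem_top]
      exact (Matrix.zero_mulVec _).symm)
    rw [hr0, zero_sub] at hr1
    exact m.isMaximal.ne_top ((Ideal.eq_top_iff_one _).mpr (by simpa using m.asIdeal.neg_mem hr1))
  obtain ⟨φ, hφ0, hφ⟩ := Submodule.exists_le_ker_of_lt_top _ (lt_top_iff_ne_top.mpr hproper)
  refine ⟨fun j => φ (Pi.single j 1), fun h => hφ0 (LinearMap.pi_ext fun j x => ?_), fun i => ?_⟩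
  · have := congrFun h j
    rw [show (Pi.single j x : Fin d → K) = x • Pi.single j 1 by
      rw [← Pi.single_smul', smul_eq_mul, mul_one], map_smul, this]
    simp
  · funext j
    have h0 : φ (N i *ᵥ Pi.single j 1) = 0 :=
      LinearMap.mem_ker.mp (hφ (Submodule.mem_iSup_of_mem i ⟨_, rfl⟩))
    rw [pi_eq_sum_univ' (N i *ᵥ Pi.single j 1), map_sum] at h0
    simp only [map_smul, smul_eq_mul, Matrix.mulVec_single_one, Matrix.col_apply] at h0
    simp only [Matrix.vecMul, dotProduct, Pi.zero_apply]
    rw [← h0]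
    exact Finset.sum_congr rfl fun l _ => mul_comm _ _

/-- Commuting matrices all of whose integral combinations are singular have a common kernel
vector. -/
theorem exists_common_kernel (N : ι → Matrix (Fin d) (Fin d) K)
    (hc : ∀ i j, N i * N j = N j * N i)
    (hdet : ∀ u : ι → ℤ, (∑ i, u i • N i).det = 0) :
    ∃ v : Fin d → K, v ≠ 0 ∧ ∀ i, N i *ᵥ v = 0 := by
  obtain ⟨w, hw, h⟩ := exists_common_kernel_vecMul (fun i => (N i)ᵀ)
    (fun i j => by rw [← Matrix.transpose_mul, ← Matrix.transpose_mul, hc j i])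
    (fun u => by
      have : (∑ i, u i • (N i)ᵀ) = (∑ i, u i • N i)ᵀ := by
        rw [Matrix.transpose_sum]
        exact Finset.sum_congr rfl fun i _ => (Matrix.transpose_smul _ _).symm
      rw [this, Matrix.det_transpose, hdet u])
  exact ⟨w, hw, fun i => by rw [← Matrix.vecMul_transpose]; exact h i⟩

end FLTAgent.HeckePoints
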