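import Fermat.Agent.ModularityLifting.Points.CommonKernel
import Fermat.Agent.ModularityLifting.CharSymbols
import Mathlib.LinearAlgebra.Matrix.Charpoly.Basic
import Mathlib.LinearAlgebra.Matrix.Charpoly.Coeff
import Mathlib.LinearAlgebra.Dual.Lemmas
import Mathlib.RingTheory.DiscreteValuationRing.Basic
import Mathlib.RingTheory.Localization.FractionRing
import Mathlib.RingTheory.LocalRing.ResidueField.Basic

/-!
# Eigenvectors at points of an algebra of operators on a residually independent family

A residually independent family of symbols has a unit minor of values, so stays independent after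
any change of coefficients; a point of an algebra of operators on it has an eigenvector
(`exists_eigenvector`), which can be chosen primitive (`exists_primitive`).
-/

set_option autoImplicit false

noncomputable section

open IsLocalRing Matrix

namespace FLTAgent.HeckePoints

open FLTAgent.LevelRaising FLTAgent.ModularityLifting

section Independent

variable {R : Type} [CommRing R] {d : ℕ}

/-- The combination of a family of symbols with given coefficients. -/
def comb (b : Fin d → Cusp → Cusp → R) : (Fin d → R) →ₗ[R] (Cusp → Cusp → R) :=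
  Fintype.linearCombination R b

/-- A combination of symbols. -/
theorem comb_apply (b : Fin d → Cusp → Cusp → R) (v : Fin d → R) :
    comb b v = ∑ j, v j • b j := Fintype.linearCombination_apply R b v

/-- The matrix of values of a family at pairs of cusps. -/
def valueMat (b : Fin d → Cusp → Cusp → R) (pts : Fin d → Cusp × Cusp) :
    Matrix (Fin d) (Fin d) R :=
  Matrix.of fun i j => b j (pts i).1 (pts i).2

theorem valueMat_mulVec (b : Fin d → Cusp → Cusp → R) (pts : Fin d → Cusp × Cusp)
    (v : Fin d → R) (i : Fin d) :
    (valueMat b pts *ᵥ v) i = comb b v (pts i).1 (pts i).2 := by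
  simp [comb_apply, valueMat, Matrix.mulVec, dotProduct, Finset.sum_apply, mul_comm]

/-- A residually independent family has a unit minor of values. -/
theorem exists_isUnit_valueMat [IsLocalRing R] (b : Fin d → Cusp → Cusp → R)
    (hli : LinearIndependent (ResidueField R) fun i => mapVal (residue R) (b i)) :
    ∃ pts : Fin d → Cusp × Cusp, IsUnit (valueMat b pts).det := by
  classical
  set k := ResidueField R
  let ev : Cusp × Cusp → Module.Dual k (Fin d → k) := fun xy =>
    { toFun := fun v => ∑ j, v j * residue R (b j xy.1 xy.2)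
      map_add' := fun u v => by simp [add_mul, Finset.sum_add_distrib]
      map_smul' := fun c v => by
        simp only [Pi.smul_apply, smul_eq_mul, RingHom.id_apply, mul_assoc]
        exact (Finset.mul_sum _ _ _).symm }
  have htop : Submodule.span k (Set.range ev) = ⊤ := by
    by_contra hne
    obtain ⟨φ, hφ0, hφ⟩ := Submodule.exists_le_ker_of_lt_top _ (lt_top_iff_ne_top.mpr hne)
    obtain ⟨v, rfl⟩ := (Module.evalEquiv k (Fin d → k)).surjective φ
    have hv : ∀ j, v j = 0 := Fintype.linearIndependent_iff.mp hli v (by
      funext x y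
      have := LinearMap.mem_ker.mp (hφ (Submodule.subset_span ⟨(x, y), rfl⟩))
      simpa [ev, mapVal, Finset.sum_apply] using this)
    exact hφ0 (by rw [show v = 0 from funext hv, map_zero])
  obtain ⟨f, hf, hspan, -⟩ := Submodule.exists_fun_fin_finrank_span_eq k (Set.range ev)
  have hd : Module.finrank k (Submodule.span k (Set.range ev)) = d := by
    rw [htop, finrank_top, Subspace.dual_finrank_eq, Module.finrank_fin_fun]
  choose pts hpts using hf
  refine ⟨fun i => pts (Fin.cast hd.symm i), ?_⟩
  rw [← residue_ne_zero_iff_isUnit, RingHom.map_det]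
  intro h0
  obtain ⟨v, hv, hmul⟩ := Matrix.exists_mulVec_eq_zero_iff.mpr h0
  refine hv ((Module.forall_dual_apply_eq_zero_iff k v).mp fun φ => ?_)
  have hφ : φ ∈ Submodule.span k (Set.range f) := by rw [hspan, htop]; trivial
  have hker : Submodule.span k (Set.range f) ≤ LinearMap.ker (Module.Dual.eval k _ v) := by
    rw [Submodule.span_le]
    rintro _ ⟨i, rfl⟩
    have h := congrFun hmul (Fin.cast hd i)
    rw [SetLike.mem_coe, LinearMap.mem_ker, Module.Dual.eval_apply, ← hpts i]
    simpa [ev, valueMat, Matrix.mulVec, dotProduct, mul_comm] using h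
  exact hker hφ

variable {b : Fin d → Cusp → Cusp → R} {pts : Fin d → Cusp × Cusp}

theorem valueMat_map {R' : Type} [CommRing R'] (φ : R →+* R') :
    valueMat (fun j => mapVal φ (b j)) pts = φ.mapMatrix (valueMat b pts) := by
  ext i j
  rfl

/-- A unit minor gives independence after any change of coefficients. -/
theorem comb_injective (hb : IsUnit (valueMat b pts).det) {R' : Type} [CommRing R']
    (φ : R →+* R') : Function.Injective (comb fun j => mapVal φ (b j)) := by
  have hu : IsUnit (valueMat (fun j => mapVal φ (b j)) pts) := by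
    rw [Matrix.isUnit_iff_isUnit_det, valueMat_map, ← RingHom.map_det]
    exact hb.map φ
  intro u v huv
  have h : valueMat (fun j => mapVal φ (b j)) pts *ᵥ u =
      valueMat (fun j => mapVal φ (b j)) pts *ᵥ v := funext fun i => by
    rw [valueMat_mulVec, valueMat_mulVec, huv]
  exact Matrix.mulVec_injective_of_isUnit hu h

/-- Operators commuting on the family have commuting matrices. -/
theorem mul_comm_of_rel (hb : IsUnit (valueMat b pts).det)
    (f g : (Cusp → Cusp → R) →ₗ[R] (Cusp → Cusp → R)) (A B : Matrix (Fin d) (Fin d) R)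
    (hf : ∀ j, f (b j) = comb b (A.col j)) (hg : ∀ j, g (b j) = comb b (B.col j))
    (hfg : ∀ j, f (g (b j)) = g (f (b j))) : A * B = B * A := by
  have key : ∀ (f g : (Cusp → Cusp → R) →ₗ[R] (Cusp → Cusp → R)) (A B : Matrix (Fin d) (Fin d) R),
      (∀ j, f (b j) = comb b (A.col j)) → (∀ j, g (b j) = comb b (B.col j)) →
      ∀ j, f (g (b j)) = comb b ((A * B).col j) := by
    intro f g A B hf hg j
    rw [hg, comb_apply, map_sum, comb_apply]
    simp only [map_smul, hf, comb_apply, Finset.smul_sum, smul_smul]
    rw [Finset.sum_comm]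
    refine Finset.sum_congr rfl fun i _ => ?_
    simp [Matrix.col, Matrix.mul_apply, Finset.sum_smul, mul_comm]
  have hi : Function.Injective (comb b) := comb_injective hb (RingHom.id R)
  refine Matrix.ext fun i j =>
    congrFun (hi (?_ : comb b ((A * B).col j) = comb b ((B * A).col j))) i
  rw [← key f g A B hf hg j, ← key g f B A hg hf j, hfg]

/-- The effect of an operator on a combination. -/
theorem apply_comb {R' : Type} [CommRing R'] (φ : R →+* R')
    (f : (Cusp → Cusp → R) →ₗ[R] (Cusp → Cusp → R))
    (f' : (Cusp → Cusp → R') →ₗ[R'] (Cusp → Cusp → R'))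
    (hff : ∀ Φ, mapVal φ (f Φ) = f' (mapVal φ Φ))
    {A : Matrix (Fin d) (Fin d) R} (hf : ∀ j, f (b j) = comb b (A.col j)) (v : Fin d → R') :
    f' (comb (fun j => mapVal φ (b j)) v) = comb (fun j => mapVal φ (b j)) (A.map φ *ᵥ v) := by
  rw [comb_apply, map_sum, comb_apply]
  simp only [map_smul, ← hff, hf, comb_apply, Matrix.mulVec, dotProduct, Finset.sum_smul]
  rw [Finset.sum_comm]
  refine Finset.sum_congr rfl fun j _ => ?_
  funext x y
  simp only [mapVal, Pi.smul_apply, Finset.sum_apply, smul_eq_mul, map_sum, map_mul,
    Finset.mul_sum, Matrix.col, Matrix.transpose_apply, Matrix.map_apply]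
  exact Finset.sum_congr rfl fun i _ => by ring

end Independent

section Eigen

variable {R T : Type} [CommRing R] [CommRing T] [Algebra R T] [Module.Finite R T] {d : ℕ}

/-- A point of an algebra of matrices has an eigenvector. -/
theorem exists_eigenvector (π : T →ₐ[R] Matrix (Fin d) (Fin d) R) {E : Type} [Field E]
    [CharZero E] (φ : R →+* E) (x : T →+* E) (hxφ : ∀ r, x (algebraMap R T r) = φ r)
    (hπ : ∀ t, π t = 0 → x t = 0) :
    ∃ v : Fin d → E, v ≠ 0 ∧ ∀ t, (π t).map φ *ᵥ v = x t • v := by
  classical
  obtain ⟨s, hs⟩ := Module.Finite.fg_top (R := R) (M := T)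
  let N : s → Matrix (Fin d) (Fin d) E := fun i => (π i).map φ - Matrix.scalar (Fin d) (x i)
  have hN : ∀ i j, N i * N j = N j * N i := by
    intro i j
    have hc : (π i).map φ * (π j).map φ = (π j).map φ * (π i).map φ := by
      rw [← Matrix.map_mul, ← Matrix.map_mul, ← map_mul, mul_comm, map_mul]
    have hs : ∀ (c : E) (M : Matrix (Fin d) (Fin d) E),
        Matrix.scalar (Fin d) c * M = M * Matrix.scalar (Fin d) c := fun c M =>
      (Matrix.scalar_commute c (fun _ => Commute.all _ _) M).eq
    simp only [N]
    rw [mul_sub, sub_mul, sub_mul, mul_sub, sub_mul, sub_mul, hc, hs (x i), hs (x j),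
      hs (x i) (Matrix.scalar (Fin d) (x j))]
    abel
  obtain ⟨v, hv0, hv⟩ := exists_common_kernel N hN (fun u => by
    let t : T := ∑ i, u i • (i : T)
    have e : ∑ i, u i • N i = -(Matrix.scalar (Fin d) (x t) - (π t).map φ) := by
      simp only [N, t, neg_sub, map_sum, map_zsmul, smul_sub, Finset.sum_sub_distrib]
      congr 1
      rw [← RingHom.mapMatrix_apply, map_sum]
      exact Finset.sum_congr rfl fun i _ => (map_zsmul φ.mapMatrix _ _).symm
    rw [e, Matrix.det_neg]
    refine mul_eq_zero_of_right _ ?_
    rw [← Matrix.eval_charpoly, ← RingHom.mapMatrix_apply, RingHom.mapMatrix_apply,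
      Matrix.charpoly_map, Polynomial.eval_map]
    have h0 : π (Polynomial.aeval t (π t).charpoly) = 0 := by
      rw [← Polynomial.aeval_algHom_apply]
      exact Matrix.aeval_self_charpoly _
    have h1 := hπ _ h0
    rwa [Polynomial.aeval_def, Polynomial.hom_eval₂,
      show x.comp (algebraMap R T) = φ from RingHom.ext hxφ] at h1)
  refine ⟨v, hv0, fun t => ?_⟩
  have ht : t ∈ Submodule.span R (s : Set T) := hs ▸ Submodule.mem_top
  induction ht using Submodule.span_induction with
  | mem y hy =>
    have := hv ⟨y, hy⟩
    simp only [N, Matrix.sub_mulVec, sub_eq_zero] at this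
    rw [this]
    funext a
    simp [Matrix.mulVec_diagonal]
  | zero => simp
  | add y z _ _ hy hz => rw [map_add, map_add, Matrix.map_add _ (map_add φ), Matrix.add_mulVec,
      hy, hz, add_smul]
  | smul r y _ hy =>
    rw [map_smul, Algebra.smul_def r y, map_mul, hxφ, mul_smul, ← hy]
    funext a
    simp [Matrix.mulVec, dotProduct, Finset.mul_sum, mul_assoc]

end Eigen

section Primitive

variable {C : Type} [CommRing C] [IsDomain C] [IsDiscreteValuationRing C] {d : ℕ}

/-- A line over the fraction field meets the lattice in a primitive vector. -/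
theorem exists_primitive {E : Type} [Field E] [Algebra C E] [IsFractionRing C E]
    {v : Fin d → E} (hv : v ≠ 0) :
    ∃ (c : E) (w : Fin d → C), c ≠ 0 ∧ (∀ j, algebraMap C E (w j) = c * v j) ∧
      ∃ j, IsUnit (w j) := by
  classical
  obtain ⟨⟨D, hD⟩, hint⟩ := IsLocalization.exist_integer_multiples_of_finite
    (nonZeroDivisors C) v
  choose u hu using fun j => hint j
  have hu' : ∀ j, algebraMap C E (u j) = algebraMap C E D * v j := fun j => by
    rw [← Algebra.smul_def]; exact hu j
  have hD0 : algebraMap C E D ≠ 0 :=
    IsFractionRing.to_map_ne_zero_of_mem_nonZeroDivisors hD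
  obtain ⟨g, hg⟩ := (IsPrincipalIdealRing.principal (Ideal.span (Set.range u))).principal
  have hg' : Ideal.span (Set.range u) = Ideal.span {g} := hg
  have hdvd : ∀ j, ∃ w, u j = g * w := fun j =>
    Ideal.mem_span_singleton.mp (hg' ▸ Ideal.subset_span ⟨j, rfl⟩)
  choose w hw using hdvd
  have hg0 : g ≠ 0 := by
    rintro rfl
    refine hv (funext fun j => ?_)
    have h := hu' j
    rw [hw j, zero_mul, map_zero] at h
    exact ((mul_eq_zero.mp h.symm).resolve_left hD0)
  obtain ⟨s, hs⟩ := Ideal.mem_span_range_iff_exists_fun.mp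
    (hg' ▸ Ideal.mem_span_singleton_self g : g ∈ Ideal.span (Set.range u))
  have h1 : ∑ j, s j * w j = 1 := mul_left_cancel₀ hg0 (by
    rw [Finset.mul_sum, mul_one]
    exact ((Finset.sum_congr rfl fun j _ => by rw [hw j]; ring).trans hs))
  have hg1 : algebraMap C E g ≠ 0 := fun h =>
    hg0 (IsFractionRing.injective C E (by rw [h, map_zero]))
  refine ⟨algebraMap C E D / algebraMap C E g, w, div_ne_zero hD0 hg1, fun j => ?_, ?_⟩
  · rw [div_mul_eq_mul_div, eq_div_iff hg1, ← hu' j, hw j, map_mul, mul_comm]
  · by_contra h
    push Not at h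
    refine (IsLocalRing.maximalIdeal.isMaximal C).ne_top ((Ideal.eq_top_iff_one _).mpr ?_)
    rw [← h1]
    exact Ideal.sum_mem _ fun j _ => Ideal.mul_mem_left _ _ (h j)

end Primitive

end FLTAgent.HeckePoints
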