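import Fermat.Agent.GaloisAttach.Inputs
import Fermat.Agent.GaloisAttach.Cyclotomic
import Fermat.Agent.GaloisAttach.ModularTrace
import Fermat.Agent.ModularityLifting.TraceRep
import Mathlib.FieldTheory.Galois.Basic

/-!
# Trace functions are determined by their values at Frobenius elements

Given Frobenius density (`FrobeniusDivisions`), continuous trace functions agreeing at Frobenius
elements are equal (`eq_of_frobenius`) and take values in every closed subring containing those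
values; attached traces are continuous (`traceCont_of_attached`).
-/

set_option autoImplicit false

noncomputable section

namespace FLTAgent.HeckePoints

open FLTAgent.ModularityLifting FLTAgent.GaloisAttach
open FLTAgent.Density (GalQ Qbar)

variable {A : Type} [CommRing A]

/-- Continuity of a trace function and a character for an `I`-adic topology. -/
def TraceCont (I : Ideal A) (f : GalQ → A) (ε : GalQ →* A) : Prop :=
  ∀ k : ℕ, ∃ L : IntermediateField ℚ Qbar, FiniteDimensional ℚ L ∧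
    ∀ σ : GalQ, (∀ x ∈ L, σ x = x) → ε σ - 1 ∈ I ^ k ∧ ∀ y, f (y * σ) - f y ∈ I ^ k

/-- The values at the powers of an element. -/
theorem trace_pow_mem {f : GalQ → A} {ε : GalQ →* A} (hf : IsPseudoRep f ε) (B : Subring A)
    {σ : GalQ} (hfσ : f σ ∈ B) (hεσ : ε σ ∈ B) : ∀ j : ℕ, f (σ ^ j) ∈ B ∧ ε (σ ^ j) ∈ B := by
  suffices h : ∀ j, f (σ ^ j) ∈ B ∧ f (σ ^ (j + 1)) ∈ B from fun j =>
    ⟨(h j).1, by rw [map_pow]; exact B.pow_mem hεσ j⟩
  intro j
  induction j with
  | zero => exact ⟨by rw [pow_zero, hf.one]; exact natCast_mem B 2, by rwa [zero_add, pow_one]⟩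
  | succ j ih =>
    refine ⟨ih.2, ?_⟩
    have h := hf.mul (σ ^ (j + 1)) σ
    rw [← pow_succ, pow_succ σ j, mul_inv_cancel_right, ← pow_succ σ j] at h
    rw [eq_sub_of_add_eq h]
    exact B.sub_mem (B.mul_mem ih.2 hfσ) (B.mul_mem hεσ ih.1)

/-- Every value is congruent to a value at a power of a Frobenius element. -/
theorem exists_frobenius_congr (hF : FrobeniusDivisions) {I : Ideal A} {f : GalQ → A}
    {ε : GalQ →* A} (hc : TraceCont I f ε) (S : Finset ℕ) (g : GalQ) (k : ℕ) :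
    ∃ ℓ, ℓ.Prime ∧ ℓ ∉ S ∧ ∃ P : ValuationSubring Qbar, P.LiesOverPrime ℓ ∧
      ∃ σ : GalQ, P.IsFrobeniusAt σ ℓ ∧
        ∃ j : ℕ, f g - f (σ ^ j) ∈ I ^ k ∧ ε g - ε (σ ^ j) ∈ I ^ k := by
  obtain ⟨L, hL, hc⟩ := hc k
  let N := IntermediateField.normalClosure ℚ L Qbar
  have : Normal ℚ N := normalClosure.normal ℚ L Qbar
  have : IsGalois ℚ N := IsGalois.mk
  obtain ⟨ℓ, hℓ, hℓS, P, hP, σ, hσ, j, hj⟩ := hF N g S
  refine ⟨ℓ, hℓ, hℓS, P, hP, σ, hσ, j, ?_⟩
  have hfix : ∀ x ∈ L, ((σ ^ j)⁻¹ * g) x = x := fun x hx => by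
    rw [AlgEquiv.mul_apply, hj x (IntermediateField.le_normalClosure L hx)]
    exact (σ ^ j).symm_apply_apply x
  obtain ⟨h1, h2⟩ := hc _ hfix
  refine ⟨by simpa using h2 (σ ^ j), ?_⟩
  have h3 := Ideal.mul_mem_left (I ^ k) (ε (σ ^ j)) h1
  rwa [mul_sub, ← map_mul, mul_inv_cancel_left, mul_one] at h3

/-- A closed subring containing the values at Frobenius elements contains all values. -/
theorem mem_of_frobenius (hF : FrobeniusDivisions) {I : Ideal A} {f : GalQ → A} {ε : GalQ →* A}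
    (hf : IsPseudoRep f ε) (hc : TraceCont I f ε) (B : Subring A)
    (hB : ∀ x, (∀ k : ℕ, ∃ b ∈ B, x - b ∈ I ^ k) → x ∈ B) (S : Finset ℕ)
    (hfrob : ∀ ℓ, ℓ.Prime → ℓ ∉ S → ∀ P : ValuationSubring Qbar, P.LiesOverPrime ℓ →
      ∀ σ, P.IsFrobeniusAt σ ℓ → f σ ∈ B ∧ ε σ ∈ B) (g : GalQ) : f g ∈ B ∧ ε g ∈ B := by
  constructor <;> refine hB _ fun k => ?_ <;>
    obtain ⟨ℓ, hℓ, hℓS, P, hP, σ, hσ, j, h1, h2⟩ := exists_frobenius_congr hF hc S g k
  · exact ⟨_, (trace_pow_mem hf B (hfrob ℓ hℓ hℓS P hP σ hσ).1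
      (hfrob ℓ hℓ hℓS P hP σ hσ).2 j).1, h1⟩
  · exact ⟨_, (trace_pow_mem hf B (hfrob ℓ hℓ hℓS P hP σ hσ).1
      (hfrob ℓ hℓ hℓS P hP σ hσ).2 j).2, h2⟩

/-- Two trace functions agreeing at Frobenius elements are equal. -/
theorem eq_of_frobenius (hF : FrobeniusDivisions) {I : Ideal A} [IsHausdorff I A]
    {f f' : GalQ → A} {ε ε' : GalQ →* A} (hf : IsPseudoRep f ε) (hf' : IsPseudoRep f' ε')
    (hc : TraceCont I f ε) (hc' : TraceCont I f' ε') (S : Finset ℕ)
    (hfrob : ∀ ℓ, ℓ.Prime → ℓ ∉ S → ∀ P : ValuationSubring Qbar, P.LiesOverPrime ℓ →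
      ∀ σ, P.IsFrobeniusAt σ ℓ → f σ = f' σ ∧ ε σ = ε' σ) : f = f' ∧ ε = ε' := by
  let I2 : Ideal (A × A) := Ideal.prod I I
  have hone : ∀ (k : ℕ) (x : A), x ∈ I ^ k →
      ((x, 0) : A × A) ∈ I2 ^ k ∧ ((0, x) : A × A) ∈ I2 ^ k := by
    intro k
    induction k with
    | zero => intro x _; simp [Ideal.one_eq_top]
    | succ k ih =>
      intro x hx
      rw [pow_succ] at hx
      refine Submodule.mul_induction_on hx (fun a ha b hb => ?_) fun a b ha hb => ?_
      · rw [pow_succ, show ((a * b, 0) : A × A) = (a, 0) * (b, 0) by simp,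
          show ((0, a * b) : A × A) = (0, a) * (0, b) by simp]
        exact ⟨Ideal.mul_mem_mul (ih a ha).1 ⟨hb, I.zero_mem⟩,
          Ideal.mul_mem_mul (ih a ha).2 ⟨I.zero_mem, hb⟩⟩
      · exact ⟨by simpa using add_mem ha.1 hb.1, by simpa using add_mem ha.2 hb.2⟩
  have hmem : ∀ (k : ℕ) (z : A × A), z.1 ∈ I ^ k → z.2 ∈ I ^ k → z ∈ I2 ^ k := fun k z h1 h2 => by
    rw [show z = (z.1, 0) + (0, z.2) by simp]
    exact add_mem (hone k _ h1).1 (hone k _ h2).2
  have hproj : ∀ (k : ℕ) (z : A × A), z ∈ I2 ^ k → z.1 ∈ I ^ k ∧ z.2 ∈ I ^ k := fun k z hz => by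
    constructor
    · have h := Ideal.mem_map_of_mem (RingHom.fst A A) hz
      rw [Ideal.map_pow] at h
      exact Ideal.pow_right_mono (Ideal.map_le_iff_le_comap.mpr
        fun (w : A × A) (hw : w ∈ I2) => hw.1) k h
    · have h := Ideal.mem_map_of_mem (RingHom.snd A A) hz
      rw [Ideal.map_pow] at h
      exact Ideal.pow_right_mono (Ideal.map_le_iff_le_comap.mpr
        fun (w : A × A) (hw : w ∈ I2) => hw.2) k h
  have key := mem_of_frobenius (A := A × A) hF (I := I2) (f := fun g => (f g, f' g))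
    (ε := ε.prod ε')
    ⟨by simp [hf.one, hf'.one]; rfl, fun x y => Prod.ext (hf.comm x y) (hf'.comm x y),
      fun x y => Prod.ext (hf.mul x y) (hf'.mul x y)⟩
    (fun k => by
      obtain ⟨L, hL, h⟩ := hc k
      obtain ⟨L', hL', h'⟩ := hc' k
      refine ⟨L ⊔ L', inferInstance, fun σ hσ => ?_⟩
      obtain ⟨a1, a2⟩ := h σ fun x hx => hσ x (SetLike.le_def.mp le_sup_left hx)
      obtain ⟨b1, b2⟩ := h' σ fun x hx => hσ x (SetLike.le_def.mp le_sup_right hx)
      exact ⟨hmem k _ a1 b1, fun y => hmem k _ (a2 y) (b2 y)⟩)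
    { carrier := {z | z.1 = z.2}
      one_mem' := rfl
      zero_mem' := rfl
      mul_mem' := fun {a b} (ha : a.1 = a.2) (hb : b.1 = b.2) => by
        show a.1 * b.1 = a.2 * b.2; rw [ha, hb]
      add_mem' := fun {a b} (ha : a.1 = a.2) (hb : b.1 = b.2) => by
        show a.1 + b.1 = a.2 + b.2; rw [ha, hb]
      neg_mem' := fun {a} (ha : a.1 = a.2) => by show -a.1 = -a.2; rw [ha] }
    (fun x hx => by
      show x.1 = x.2
      refine sub_eq_zero.mp (IsHausdorff.haus (I := I) inferInstance _ fun k => ?_)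
      rw [SModEq.zero, smul_eq_mul, Ideal.mul_top]
      obtain ⟨b, hb, hxb⟩ := hx k
      have hb' : b.1 = b.2 := hb
      obtain ⟨c1, c2⟩ := hproj k _ hxb
      have := sub_mem c1 c2
      simpa [hb'] using this)
    S hfrob
  exact ⟨funext fun g => (key g).1, MonoidHom.ext fun g => (key g).2⟩

/-- An attached trace is a continuous pseudo-representation. -/
theorem traceCont_of_attached {N p : ℕ} [NeZero N] {S : Set ℕ} {I : Ideal A}
    {χ : CuspForm.heckeAlgebra N 2 S →+* A} (T : AttachedTrace N p S I χ) :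
    IsPseudoRep T.f T.ε ∧ TraceCont I T.f T.ε :=
  ⟨⟨T.one, T.comm, T.mul⟩, T.continuous⟩

end FLTAgent.HeckePoints
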