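import Fermat.Agent.ModularityLifting.Points.TwistMulti
import Fermat.Agent.ModularityLifting.Points.Density
import Fermat.Agent.ModularityLifting.HeckeOfSymb
import Fermat.Agent.GaloisAttach.Supplied

/-!
# Trace functions attached to eigensymbols with a square character

An eigensymbol with integral eigenvalues gives a character of the Hecke algebra, and one whose
character is a product of squares gives, after twisting, a trace function (`exists_twisted_trace`)
with the cyclotomic determinant `cycChar`.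
-/

set_option autoImplicit false

noncomputable section

namespace FLTAgent.HeckePoints

open IsLocalRing FLTAgent.LevelRaising FLTAgent.ModularityLifting FLTAgent.GaloisAttach
open FLTAgent.Density (GalQ Qbar)

section Hecke

variable {K : Type} [Field K] [CharZero K] {C : Type} [CommRing C] {L : ℕ} [NeZero L]

/-- An eigensymbol with integral eigenvalues gives a character of the Hecke algebra. -/
theorem exists_heckeChar (j : C →+* K) (hj : Function.Injective j) (S : Finset ℕ)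
    (hS : ∀ q, q.Prime → q ∣ L → q ∈ S) (a : ℕ → K) {Φ : Cusp → Cusp → K} (hΦ : Φ ∈ Lev K L)
    (hne0 : Φ ≠ 0) (ha : ∀ l, l.Prime → l ∉ S → tOp K l Φ = a l • Φ)
    (hint : ∀ l, l.Prime → l ∉ S → a l ∈ Set.range j)
    (hne : ∃ ℓ, ℓ.Prime ∧ ℓ ∉ S ∧ ℓ % L = 1 % L ∧ a ℓ ≠ 1 + ℓ) :
    ∃ θ : CuspForm.heckeAlgebra L 2 (S : Set ℕ) →+* C,
      ∀ (l : ℕ) (hl : l.Prime) (hlL : ¬ l ∣ L) (hlS : l ∉ (S : Set ℕ)),
        j (θ (CuspForm.heckeAlgebra.T hl hlL hlS)) = a l := by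
  classical
  have hres : ∀ x y : K, residue K x = residue K y → x = y := fun x y h => by
    rw [← sub_eq_zero, ← map_sub, residue_eq_zero_iff, IsLocalRing.maximalIdeal_eq_bot,
      Ideal.mem_bot, sub_eq_zero] at h
    exact h
  obtain ⟨act, hact⟩ := hecke_of_symb (R := K) S hS a (by
    obtain ⟨ℓ, hℓ, hℓS, hmod, h⟩ := hne
    exact ⟨ℓ, hℓ, hℓS, hmod, fun he => h (hres _ _ he)⟩)
  have hΦ' : Φ ∈ eigenPart K (1 : DirichletCharacter K L) S a := by
    refine (mem_eigenPart_iff hS).mpr ⟨by rw [symbChar_eq_lev]; exact hΦ, fun l hl hlS n => ⟨1, ?_⟩⟩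
    rw [pow_one, shiftOp_apply, tOpChar_one hl (fun h => hlS (hS l hl h)), ha l hl hlS, sub_self]
    exact zero_mem _
  set v : eigenPart K (1 : DirichletCharacter K L) S a := ⟨Φ, hΦ'⟩
  have hv : v ≠ 0 := fun h => hne0 (congrArg Subtype.val h)
  have hex : ∀ t : CuspForm.heckeAlgebra L 2 (S : Set ℕ), ∃ c : C, act t v = j c • v := by
    rintro ⟨t, ht⟩
    induction ht using Algebra.adjoin_induction with
    | mem x hx =>
      rcases hx with ⟨l, hl, hlL, hlS, rfl⟩ | ⟨q, hqL, hq, hqS, rfl⟩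
      · obtain ⟨c, hc⟩ := hint l hl (fun h => hlS (Finset.mem_coe.mpr h))
        refine ⟨c, Subtype.ext ?_⟩
        rw [Submodule.coe_smul, hc]
        exact (hact l hl hlL hlS v).trans (ha l hl fun h => hlS (Finset.mem_coe.mpr h))
      · exact absurd (Finset.mem_coe.mpr (hS q hq hqL)) hqS
    | algebraMap r =>
      refine ⟨r, ?_⟩
      rw [show (⟨_, Subalgebra.algebraMap_mem _ r⟩ : CuspForm.heckeAlgebra L 2 (S : Set ℕ)) =
        algebraMap ℤ _ r from rfl, eq_intCast, map_intCast, map_intCast, Module.End.intCast_apply]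
      exact (Int.cast_smul_eq_zsmul K r v).symm
    | add x y hx hy ihx ihy =>
      obtain ⟨b, hb⟩ := ihx
      obtain ⟨c, hc⟩ := ihy
      refine ⟨b + c, ?_⟩
      rw [show (⟨x + y, _⟩ : CuspForm.heckeAlgebra L 2 (S : Set ℕ)) = ⟨x, hx⟩ + ⟨y, hy⟩ from rfl,
        map_add, LinearMap.add_apply, hb, hc, map_add, add_smul]
    | mul x y hx hy ihx ihy =>
      obtain ⟨b, hb⟩ := ihx
      obtain ⟨c, hc⟩ := ihy
      refine ⟨b * c, ?_⟩
      rw [show (⟨x * y, _⟩ : CuspForm.heckeAlgebra L 2 (S : Set ℕ)) = ⟨x, hx⟩ * ⟨y, hy⟩ from rfl,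
        map_mul, Module.End.mul_apply, hc, map_smul, hb, smul_smul, map_mul, mul_comm]
  have huniq : ∀ x y : C, j x • v = j y • v → x = y := fun x y h =>
    hj (smul_left_injective K hv h)
  choose c hc using hex
  refine ⟨{ toFun := c
            map_one' := huniq _ _ (by rw [← hc, map_one, map_one, Module.End.one_apply, one_smul])
            map_mul' := fun x y => huniq _ _ (by
              rw [← hc, map_mul, Module.End.mul_apply, hc y, map_smul, hc x, smul_smul, map_mul,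
                mul_comm])
            map_zero' := huniq _ _
              (by rw [← hc, map_zero, map_zero, LinearMap.zero_apply, zero_smul])
            map_add' := fun x y => huniq _ _ (by
              rw [← hc, map_add, LinearMap.add_apply, hc, hc, map_add, add_smul]) },
    fun l hl hlL hlS => smul_left_injective K hv ((hc _).symm.trans (Subtype.ext ?_))⟩
  rw [Submodule.coe_smul]
  exact (hact l hl hlL hlS v).trans (ha l hl fun h => hlS (Finset.mem_coe.mpr h))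

end Hecke

section Cyclotomic

variable {p : ℕ} [Fact p.Prime] {A B : Type} [CommRing A] [CommRing B] {I : Ideal A} {J : Ideal B}
  [IsAdicComplete I A] [IsAdicComplete J B]

/-- The cyclotomic character with values in a complete ring. -/
def cycChar (hpI : (p : A) ∈ I) : GalQ →* A := (padicTo hpI).toMonoidHom.comp (cyc p)

/-- The cyclotomic character in the coefficient ring. -/
theorem cycChar_apply (hpI : (p : A) ∈ I) (g : GalQ) : cycChar hpI g = padicTo hpI (cyc p g) := rfl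

theorem map_padicTo (hpI : (p : A) ∈ I) (hpJ : (p : B) ∈ J) (φ : A →+* B)
    (hφ : I ≤ J.comap φ) (z : ℤ_[p]) : φ (padicTo hpI z) = padicTo hpJ z := by
  refine eq_of_forall_sub_mem_pow (I := J) fun n => ?_
  have h1 : φ (padicTo hpI z) - ((PadicInt.toZModPow n z).val : ℕ) ∈ J ^ n := by
    have h := Ideal.mem_map_of_mem φ (padicTo_sub_mem hpI n z)
    rw [map_sub, map_natCast, Ideal.map_pow] at h
    exact Ideal.pow_right_mono (Ideal.map_le_iff_le_comap.mpr hφ) n h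
  simpa using sub_mem h1 (padicTo_sub_mem hpJ n z)

theorem map_cycChar (hpI : (p : A) ∈ I) (hpJ : (p : B) ∈ J) (φ : A →+* B)
    (hφ : I ≤ J.comap φ) (g : GalQ) : φ (cycChar hpI g) = cycChar hpJ g :=
  map_padicTo hpI hpJ φ hφ _

/-- The cyclotomic character of a Frobenius at `ℓ ≠ p` is `ℓ`. -/
theorem cycChar_frobenius (hpI : (p : A) ∈ I) {ℓ : ℕ} (hℓ : ℓ.Prime) (hℓp : ℓ ≠ p)
    {P : ValuationSubring Qbar} (hP : P.LiesOverPrime ℓ) {σ : GalQ} (hσ : P.IsFrobeniusAt σ ℓ) :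
    cycChar hpI σ = ℓ := by
  rw [cycChar_apply, cyc_frobenius p hℓ hℓp hP hσ, map_natCast]

end Cyclotomic

section Twisted

variable {p : ℕ} [Fact p.Prime] {K : Type} [Field K] [IsAlgClosed K] [CharZero K]
  {C : Type} [CommRing C] (I : Ideal C) [IsAdicComplete I C]

omit [IsAlgClosed K] in
/-- An eigensymbol whose character is the square of `∏ (χ t)` gives, after twisting, a Hecke
character of trivial nebentype, and its trace function. -/
theorem exists_twisted_trace (hpI : (p : C) ∈ I) (j : C →+* K) (hj : Function.Injective j)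
    (T : Finset ℕ) (hT : ∀ t ∈ T, t.Prime) (χ : ∀ t, DirichletCharacter K t)
    (hχ : ∀ t ∈ T, χ t ^ 2 ≠ 1) {M L' : ℕ} [NeZero L'] (hM : ∀ t ∈ T, ¬ t ∣ M)
    {L : ℕ} (hL : L = M * ∏ t ∈ T, t) (hL' : L' = M * ∏ t ∈ T, t ^ 2) (δ : DirichletCharacter K L)
    (hδ : ∀ d : ℤ, IsUnit (d : ZMod L) → δ (d : ZMod L) = ∏ t ∈ T, χ t (d : ZMod t) ^ 2)
    (S : Finset ℕ) (hS : ∀ l, l.Prime → l ∣ L → l ∈ S) (a : ℕ → K)
    {Φ : Cusp → Cusp → K} (hΦ : Φ ∈ SymbChar K δ) (hne0 : Φ ≠ 0)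
    (ha : ∀ l, l.Prime → l ∉ S → tOpChar K δ l Φ = a l • Φ)
    (hint : ∀ l, l.Prime → l ∉ S → (∏ t ∈ T, (χ t)⁻¹ (l : ZMod t)) * a l ∈ Set.range j)
    (hne : ∃ ℓ, ℓ.Prime ∧ ℓ ∉ S ∧ ℓ % L' = 1 % L' ∧
      (∏ t ∈ T, (χ t)⁻¹ (ℓ : ZMod t)) * a ℓ ≠ 1 + ℓ) :
    ∃ Ψ ∈ Lev K L', Ψ ≠ 0 ∧
      (∀ l, l.Prime → l ∉ S → tOp K l Ψ = ((∏ t ∈ T, (χ t)⁻¹ (l : ZMod t)) * a l) • Ψ) ∧
      ∃ θ : CuspForm.heckeAlgebra L' 2 (S : Set ℕ) →+* C,
        (∀ (l : ℕ) (hl : l.Prime) (hlL : ¬ l ∣ L') (hlS : l ∉ (S : Set ℕ)),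
          j (θ (CuspForm.heckeAlgebra.T hl hlL hlS)) = (∏ t ∈ T, (χ t)⁻¹ (l : ZMod t)) * a l) ∧
        ∃ A : AttachedTrace L' p (S : Set ℕ) I θ, A.ε = cycChar hpI := by
  classical
  subst hL'
  have hM0 : M ≠ 0 := left_ne_zero_of_mul (NeZero.ne (M * ∏ t ∈ T, t ^ 2))
  obtain ⟨Ψ, hΨ, hΨ0, hΨa⟩ := exists_twist_trivial T hT χ hχ M hM0 hM hL δ hδ S hS a hΦ hne0 ha
  have hS' : ∀ q, q.Prime → q ∣ M * ∏ t ∈ T, t ^ 2 → q ∈ S := fun q hq h => hS q hq (by
    rw [hL]
    rcases hq.dvd_mul.mp h with h | h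
    · exact h.mul_right _
    · obtain ⟨t, ht, htq⟩ := hq.prime.exists_mem_finset_dvd h
      exact ((hq.dvd_of_dvd_pow htq).trans (Finset.dvd_prod_of_mem _ ht)).mul_left _)
  obtain ⟨θ, hθ⟩ := exists_heckeChar j hj S hS' _ hΨ hΨ0 hΨa hint hne
  obtain ⟨A, c, hA⟩ := exists_attachedTrace_link
    (jacobianInputs (M * ∏ t ∈ T, t ^ 2) (p := p) Fact.out) frobeniusDivisions S.finite_toSet
      I hpI θ
  exact ⟨Ψ, hΨ, hΨ0, hΨa, θ, hθ, A, MonoidHom.ext fun g => hA.det_eq g⟩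

end Twisted

end FLTAgent.HeckePoints
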