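import Fermat.Agent.ModularityLifting.Points.Density
import Fermat.Agent.GaloisAttach.Supplied
import Fermat.Agent.ModularityLifting.TraceRep
import Fermat.Agent.DefRing.MatrixRep
import Mathlib.RingTheory.DiscreteValuationRing.TFAE
import Mathlib.RingTheory.Filtration
import Mathlib.RingTheory.IntegralClosure.IsIntegralClosure.Basic

/-!
# Trace functions on finitely many points

The trace functions at finitely many points, viewed in the product of the coefficient rings, take
values in every closed subalgebra containing their values at Frobenius elements, and generate a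
local algebra carrying the representation of a frame.
-/

set_option autoImplicit false

noncomputable section

open IsLocalRing

namespace FLTAgent.HeckePoints

open FLTAgent.ModularityLifting FLTAgent.GaloisAttach FLTAgent.DefRing
open FLTAgent.Density (GalQ Qbar)

variable {O C : Type} [CommRing O] [CommRing C] [IsDomain C] [IsDiscreteValuationRing C]
  [Algebra O C] {X : Type} [Finite X] {ε : GalQ →* O}

/-- The trace functions at the points, in the product. -/
def prodTrace (f : X → GalQ → C) (g : GalQ) : X → C := fun x => f x g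

/-- The determinant in the product. -/
def prodDet (O : Type) [CommRing O] (C : Type) [CommRing C] [Algebra O C] (X : Type)
    (ε : GalQ →* O) : GalQ →* (X → C) :=
  (algebraMap O (X → C)).toMonoidHom.comp ε

omit [IsDomain C] [IsDiscreteValuationRing C] [Finite X] in
theorem isPseudoRep_prod {f : X → GalQ → C}
    (hf : ∀ x, IsPseudoRep (f x) ((algebraMap O C).toMonoidHom.comp ε)) :
    IsPseudoRep (prodTrace f) (prodDet O C X ε) where
  one := funext fun x => (hf x).one
  comm a b := funext fun x => (hf x).comm a b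
  mul a b := funext fun x => (hf x).mul a b

variable {lam : O}

theorem traceCont_prod (hlam : algebraMap O C lam ≠ 0) {f : X → GalQ → C}
    (hc : ∀ x, TraceCont (maximalIdeal C) (f x) ((algebraMap O C).toMonoidHom.comp ε)) :
    TraceCont (Ideal.span {algebraMap O (X → C) lam}) (prodTrace f) (prodDet O C X ε) := by
  classical
  obtain ⟨π, hπ⟩ := IsDiscreteValuationRing.exists_irreducible C
  obtain ⟨e, u, he⟩ := IsDiscreteValuationRing.eq_unit_mul_pow_irreducible hlam hπ
  intro k
  choose L hL hL' using fun x => hc x (e * k)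
  have := fun x => hL x
  refine ⟨⨆ x, L x, IntermediateField.finiteDimensional_iSup_of_finite, fun σ hσ => ?_⟩
  have hmem : ∀ z : X → C, (∀ x, z x ∈ maximalIdeal C ^ (e * k)) →
      z ∈ Ideal.span {algebraMap O (X → C) lam} ^ k := by
    intro z hz
    rw [Ideal.span_singleton_pow, Ideal.mem_span_singleton]
    choose w hw using fun x => Ideal.mem_span_singleton.mp
      (show z x ∈ Ideal.span {π ^ (e * k)} by
        rw [← Ideal.span_singleton_pow, ← hπ.maximalIdeal_eq]; exact hz x)
    refine ⟨fun x => (↑u⁻¹ : C) ^ k * w x, funext fun x => ?_⟩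
    show z x = algebraMap O C lam ^ k * ((↑u⁻¹ : C) ^ k * w x)
    rw [hw x, he, mul_pow, pow_mul, mul_comm ((u : C) ^ k), mul_assoc, ← mul_assoc ((u : C) ^ k),
      ← mul_pow, Units.mul_inv, one_pow, one_mul]
  have hfix : ∀ x, ∀ y ∈ L x, σ y = y := fun x y hy => hσ y ((le_iSup L x) hy)
  exact ⟨hmem _ fun x => ((hL' x σ (hfix x)).1 :), fun y => hmem _ fun x =>
    ((hL' x σ (hfix x)).2 y :)⟩

section Range

variable [IsLocalRing O] [IsNoetherianRing O] [Module.Finite O C]

omit [IsDomain C] [IsDiscreteValuationRing C] in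
/-- A submodule of a finite module over a Noetherian local ring is closed. -/
theorem mem_of_forall_congr (hlam : lam ∈ maximalIdeal O) (N : Submodule O (X → C)) {z : X → C}
    (h : ∀ k : ℕ, ∃ b ∈ N, z - b ∈ Ideal.span {algebraMap O (X → C) lam} ^ k) : z ∈ N := by
  have hk : ∀ k : ℕ, N.mkQ z ∈ maximalIdeal O ^ k • (⊤ : Submodule O ((X → C) ⧸ N)) := by
    intro k
    obtain ⟨b, hb, hzb⟩ := h k
    rw [Ideal.span_singleton_pow, Ideal.mem_span_singleton] at hzb
    obtain ⟨w, hw⟩ := hzb
    have e : N.mkQ z = lam ^ k • N.mkQ w := by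
      rw [← map_smul, ← sub_eq_zero, ← map_sub, Submodule.mkQ_apply, Submodule.Quotient.mk_eq_zero,
        Algebra.smul_def, map_pow, ← hw, sub_sub_cancel]
      exact hb
    rw [e]
    exact Submodule.smul_mem_smul (Ideal.pow_mem_pow hlam k) Submodule.mem_top
  have h0 : N.mkQ z ∈ ⨅ k : ℕ, maximalIdeal O ^ k • (⊤ : Submodule O ((X → C) ⧸ N)) :=
    Submodule.mem_iInf _ |>.mpr hk
  rw [Ideal.iInf_pow_smul_eq_bot_of_isLocalRing _ (maximalIdeal.isMaximal O).ne_top,
    Submodule.mem_bot] at h0
  exact (Submodule.Quotient.mk_eq_zero N).mp h0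

/-- The trace functions take values in a subalgebra containing their values at Frobenius
elements. -/
theorem trace_mem_subalgebra (hlam : lam ∈ maximalIdeal O) (hlam0 : algebraMap O C lam ≠ 0)
    (B : Subalgebra O (X → C)) {f : X → GalQ → C}
    (hf : ∀ x, IsPseudoRep (f x) ((algebraMap O C).toMonoidHom.comp ε))
    (hc : ∀ x, TraceCont (maximalIdeal C) (f x) ((algebraMap O C).toMonoidHom.comp ε))
    (S : Finset ℕ) (hfrob : ∀ ℓ, ℓ.Prime → ℓ ∉ S → ∀ P : ValuationSubring Qbar, P.LiesOverPrime ℓ →
      ∀ σ, P.IsFrobeniusAt σ ℓ → prodTrace f σ ∈ B) (g : GalQ) : prodTrace f g ∈ B :=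
  (mem_of_frobenius frobeniusDivisions (isPseudoRep_prod hf) (traceCont_prod hlam0 hc) B.toSubring
    (fun _ hz => mem_of_forall_congr hlam (Subalgebra.toSubmodule B) hz) S
    (fun ℓ hℓ hℓS P hP σ hσ => ⟨hfrob ℓ hℓ hℓS P hP σ hσ, B.algebraMap_mem _⟩) g).1

end Range

/-- The algebra generated by the traces at the points. -/
def trAlg (O : Type) [CommRing O] {C : Type} [CommRing C] [Algebra O C] {X : Type}
    (f : X → GalQ → C) : Subalgebra O (X → C) :=
  Algebra.adjoin O (Set.range (prodTrace f))

/-- A trace as an element of the algebra. -/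
def trVal (O : Type) [CommRing O] {C : Type} [CommRing C] [Algebra O C] {X : Type}
    (f : X → GalQ → C) (g : GalQ) : trAlg O f :=
  ⟨prodTrace f g, Algebra.subset_adjoin ⟨g, rfl⟩⟩

/-- Evaluation at a point. -/
def evalPt {f : X → GalQ → C} (x : X) : trAlg O f →ₐ[O] C :=
  (Pi.evalAlgHom O (fun _ : X => C) x).comp (trAlg O f).val

section Local

variable [IsLocalRing O] [IsLocalHom (algebraMap O C)] {f : X → GalQ → C}
  (hres : ∀ g, ∃ o : O, ∀ x, f x g - algebraMap O C o ∈ maximalIdeal C)

omit [IsLocalHom (algebraMap O C)] [IsLocalRing O] [Finite X] in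
include hres in
theorem exists_congr_const (b : trAlg O f) :
    ∃ o : O, ∀ x, evalPt x b - algebraMap O C o ∈ maximalIdeal C := by
  obtain ⟨b, hb⟩ := b
  induction hb using Algebra.adjoin_induction with
  | mem z hz =>
    obtain ⟨g, rfl⟩ := hz
    exact hres g
  | algebraMap o =>
    refine ⟨o, fun x => ?_⟩
    show algebraMap O C o - algebraMap O C o ∈ maximalIdeal C
    simp
  | add y z hy hz ihy ihz =>
    obtain ⟨o, ho⟩ := ihy
    obtain ⟨o', ho'⟩ := ihz
    refine ⟨o + o', fun x => ?_⟩
    show (y x + z x) - algebraMap O C (o + o') ∈ maximalIdeal C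
    rw [map_add, add_sub_add_comm]
    exact add_mem (ho x) (ho' x)
  | mul y z hy hz ihy ihz =>
    obtain ⟨o, ho⟩ := ihy
    obtain ⟨o', ho'⟩ := ihz
    refine ⟨o * o', fun x => ?_⟩
    show (y x * z x) - algebraMap O C (o * o') ∈ maximalIdeal C
    rw [show y x * z x - algebraMap O C (o * o') =
      (y x - algebraMap O C o) * z x + algebraMap O C o * (z x - algebraMap O C o') by
        rw [map_mul]; ring]
    exact add_mem (Ideal.mul_mem_right _ _ (ho x)) (Ideal.mul_mem_left _ _ (ho' x))

variable [Module.Finite O C] [IsNoetherianRing O]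

omit [IsLocalRing O] [IsNoetherianRing O] [IsLocalHom (algebraMap O C)] in
theorem isUnit_trAlg_of_unit {b : trAlg O f} {o : O} (ho : IsUnit o)
    (hb : ∀ x, evalPt x b - algebraMap O C o ∈ maximalIdeal C) : IsUnit b := by
  have : Algebra.IsIntegral (trAlg O f) (X → C) := Algebra.IsIntegral.tower_top O
  have : IsLocalHom (algebraMap (trAlg O f) (X → C)) :=
    (algebraMap_isIntegral_iff.mpr inferInstance).isLocalHom Subtype.val_injective
  refine IsUnit.of_map (algebraMap (trAlg O f) (X → C)) _ (Pi.isUnit_iff.mpr fun x => ?_)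
  by_contra hu
  have h := sub_mem ((IsLocalRing.mem_maximalIdeal _).mpr hu) (hb x)
  rw [show algebraMap (trAlg O f) (X → C) b x = evalPt x b from rfl, sub_sub_cancel] at h
  exact (IsLocalRing.mem_maximalIdeal _).mp h (ho.map _)

omit [IsLocalHom (algebraMap O C)] [IsNoetherianRing O] in
include hres in
theorem isLocalRing_trAlg [Nonempty X] : IsLocalRing (trAlg O f) := by
  have : Nontrivial (trAlg O f) := ⟨0, 1, fun h => by
    have := congrArg (fun z : trAlg O f => evalPt (Classical.arbitrary X) z) h
    simp at this⟩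
  refine IsLocalRing.of_isUnit_or_isUnit_one_sub_self fun b => ?_
  obtain ⟨o, ho⟩ := exists_congr_const hres b
  rcases IsLocalRing.isUnit_or_isUnit_one_sub_self o with h | h
  · exact Or.inl (isUnit_trAlg_of_unit h ho)
  · refine Or.inr (isUnit_trAlg_of_unit h fun x => ?_)
    rw [map_sub, map_sub, map_one, map_one, sub_sub_sub_cancel_left, ← neg_sub]
    exact neg_mem (ho x)

include hres in
omit [IsNoetherianRing O] in
theorem mem_maximalIdeal_trAlg [Nonempty X] {b : trAlg O f} :
    (haveI := isLocalRing_trAlg hres; b ∈ maximalIdeal (trAlg O f)) ↔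
      ∀ x, evalPt x b ∈ maximalIdeal C := by
  have := isLocalRing_trAlg hres
  constructor
  · intro hb x
    obtain ⟨o, ho⟩ := exists_congr_const hres b
    by_cases hu : IsUnit o
    · exact absurd (isUnit_trAlg_of_unit hu ho) ((IsLocalRing.mem_maximalIdeal _).mp hb)
    · have := add_mem (ho x)
        (map_nonunit (algebraMap O C) o ((IsLocalRing.mem_maximalIdeal _).mpr hu))
      simpa using this
  · intro h
    refine (IsLocalRing.mem_maximalIdeal _).mpr fun hu => ?_
    exact (IsLocalRing.mem_maximalIdeal _).mp (h (Classical.arbitrary X))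
      (hu.map (evalPt (Classical.arbitrary X)))

omit [IsDomain C] [IsDiscreteValuationRing C] [IsLocalHom (algebraMap O C)] [IsLocalRing O] in
theorem finite_trAlg : Module.Finite O (trAlg O f) :=
  Module.Finite.of_injective (trAlg O f).val.toLinearMap Subtype.val_injective

omit [IsNoetherianRing O] in
/-- A frame over the algebra of traces at complex conjugation. -/
theorem exists_frame_trAlg [Nonempty X] {ε' : GalQ →* O} (h2 : IsUnit (2 : O))
    (hres : ∀ g, ∃ o : O, ∀ x, f x g - algebraMap O C o ∈ maximalIdeal C)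
    {γ : GalQ} (hγ : ∀ x, f x γ = 0) (hεγ : ε' γ = -1) (R0 : MatRep (ResidueField O))
    (htr : ∀ g x, residue C (f x g) =
      IsLocalRing.ResidueField.map (algebraMap O C) (R0 g).trace)
    (hR0γ : R0 γ = !![1, 0; 0, -1]) (r s : GalQ) (hr : R0 r 1 0 = 1) (hs : R0 s 0 1 ≠ 0) :
    ∃ F : Frame (trVal O f) ((algebraMap O (trAlg O f)).toMonoidHom.comp ε'),
      F.γ = γ ∧ F.r = r ∧ F.α = 1 ∧ F.β = -1 := by
  obtain ⟨u0, hu0⟩ := h2
  let u : trAlg O f := algebraMap O _ (↑u0⁻¹ : O)
  have hu : ((1 : trAlg O f) - -1) * u = 1 := by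
    rw [sub_neg_eq_add, one_add_one_eq_two, ← map_ofNat (algebraMap O (trAlg O f)), ← map_mul,
      ← hu0, Units.mul_inv, map_one]
  set ι := IsLocalRing.ResidueField.map (algebraMap O C)
  have hX : IsUnit (frameX (trVal O f) γ (-1) u s r) := by
    obtain ⟨o, ho⟩ := exists_congr_const hres (frameX (trVal O f) γ (-1) u s r)
    refine isUnit_trAlg_of_unit ?_ ho
    by_contra hou
    obtain ⟨x⟩ := (inferInstance : Nonempty X)
    set φ : trAlg O f →+* ResidueField C := (residue C).comp (evalPt x).toRingHom with hφ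
    have hφtr : ∀ g, φ (trVal O f g) = ι (R0 g).trace := fun g => htr g x
    have hφu : φ u = ι (residue O (↑u0⁻¹ : O)) := by
      show residue C (evalPt x (algebraMap O _ _)) = _
      rw [AlgHom.commutes, IsLocalRing.ResidueField.map_residue]
    have h2u : (residue O (↑u0⁻¹ : O)) * 2 = 1 := by
      rw [← map_ofNat (residue O), ← map_mul, ← hu0, Units.inv_mul, map_one]
    have ha : ∀ g, φ (frameA (trVal O f) γ (-1) u g) = ι (R0 g 0 0) := fun g => by
      rw [frameA, map_mul, map_sub, map_mul, map_neg, map_one, hφu, hφtr, hφtr, map_mul R0, hR0γ,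
        neg_one_mul, sub_neg_eq_add, ← map_add ι, ← map_mul ι]
      congr 1
      generalize residue O (↑u0⁻¹ : O) = w at h2u ⊢
      rw [Matrix.trace_fin_two, Matrix.trace_fin_two, Matrix.mul_apply, Matrix.mul_apply,
        Fin.sum_univ_two, Fin.sum_univ_two]
      simp
      linear_combination (R0 g 0 0) * h2u
    have h := ho x
    have hzero : φ (frameX (trVal O f) γ (-1) u s r) = 0 := by
      refine (residue_eq_zero_iff _).mpr ?_
      have := add_mem h (map_nonunit (algebraMap O C) o ((IsLocalRing.mem_maximalIdeal _).mpr hou))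
      simpa using this
    rw [frameX, map_sub, map_mul, ha, ha, ha, map_mul R0, ← map_mul ι, ← map_sub ι, map_eq_zero,
      Matrix.mul_apply, Fin.sum_univ_two, hr, add_sub_cancel_left, mul_one] at hzero
    exact hs hzero
  obtain ⟨v, hv⟩ := hX
  refine ⟨⟨γ, 1, -1, u, r, s, ↑v⁻¹, ?_, ?_, hu, by rw [← hv]; exact Units.mul_inv v⟩,
    rfl, rfl, rfl, rfl⟩
  · refine Subtype.ext (funext fun x => ?_)
    show (1 : C) + -1 = f x γ
    rw [hγ, add_neg_cancel]
  · show (1 : trAlg O f) * -1 = algebraMap O (trAlg O f) (ε' γ)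
    rw [hεγ, map_neg, map_one, one_mul]

end Local

section Rep

variable {f : X → GalQ → C}

omit [IsDomain C] [IsDiscreteValuationRing C] [Finite X] in
theorem isPseudoRep_trVal (hf : ∀ x, IsPseudoRep (f x) ((algebraMap O C).toMonoidHom.comp ε)) :
    IsPseudoRep (trVal O f) ((algebraMap O (trAlg O f)).toMonoidHom.comp ε) where
  one := Subtype.ext (isPseudoRep_prod hf).one
  comm a b := Subtype.ext ((isPseudoRep_prod hf).comm a b)
  mul a b := Subtype.ext ((isPseudoRep_prod hf).mul a b)

variable (hf : ∀ x, IsPseudoRep (f x) ((algebraMap O C).toMonoidHom.comp ε))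
  (F : Frame (trVal O f) ((algebraMap O (trAlg O f)).toMonoidHom.comp ε))

/-- The representation at a point. -/
def ptRep (x : X) : MatRep C := mapRep (evalPt x).toRingHom (F.rep (isPseudoRep_trVal hf))

omit [IsDomain C] [IsDiscreteValuationRing C] [Finite X] in
theorem trace_ptRep (x : X) (g : GalQ) : (ptRep hf F x g).trace = f x g := by
  rw [ptRep, mapRep_eq_map, ← RingHom.mapMatrix_apply]
  have h := F.trace_rep (isPseudoRep_trVal hf) g
  rw [Matrix.trace_fin_two] at h ⊢
  exact (map_add (evalPt x) _ _).symm.trans (congrArg (evalPt x) h)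

omit [IsDomain C] [IsDiscreteValuationRing C] [Finite X] in
theorem det_ptRep (x : X) (g : GalQ) : (ptRep hf F x g).det = algebraMap O C (ε g) := by
  rw [ptRep, mapRep_eq_map, ← RingHom.mapMatrix_apply, ← RingHom.map_det, F.det_rep]
  exact (evalPt x).commutes _

omit [Finite X] in
theorem matCont_ptRep (x : X)
    (hc : TraceCont (maximalIdeal C) (f x) ((algebraMap O C).toMonoidHom.comp ε)) :
    MatCont (ptRep hf F x) := by
  intro n
  obtain ⟨L, hL, h⟩ := hc n
  refine ⟨L, hL, fun σ hσ i j => ?_⟩
  have h1 := (F.map (evalPt x).toRingHom).rep_sub_one_mem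
    ((isPseudoRep_trVal hf).map (evalPt x).toRingHom) (I := maximalIdeal C ^ n)
    (fun y => (h σ hσ).2 y) i j
  rw [Frame.rep_map] at h1
  exact h1

omit [Finite X] in
/-- The residual representation at a point is the normalised one. -/
theorem residue_ptRep [IsLocalRing O] [IsLocalHom (algebraMap O C)]
    (hγ : F.α = 1 ∧ F.β = -1) (R0 : MatRep (ResidueField O)) (x : X)
    (htr : ∀ g, residue C (f x g) = IsLocalRing.ResidueField.map (algebraMap O C) (R0 g).trace)
    (hR0γ : R0 F.γ = !![1, 0; 0, -1]) (hr : R0 F.r 1 0 = 1) :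
    mapRep (residue C) (ptRep hf F x) =
      mapRep (IsLocalRing.ResidueField.map (algebraMap O C)) R0 := by
  set ι := IsLocalRing.ResidueField.map (algebraMap O C)
  set φ : trAlg O f →+* ResidueField C := (residue C).comp (evalPt x).toRingHom
  have e : mapRep (residue C) (ptRep hf F x) = (F.map φ).rep ((isPseudoRep_trVal hf).map φ) :=
    MonoidHom.ext fun g => (F.rep_map (isPseudoRep_trVal hf) φ g).symm
  rw [e]
  refine ((F.map φ).eq_rep _ (mapRep ι R0) (fun g => ?_) ?_ ?_).symm
  · rw [mapRep_eq_map, Matrix.trace_fin_two, Matrix.map_apply, Matrix.map_apply, ← map_add,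
      ← Matrix.trace_fin_two]
    exact (htr g).symm
  · show (R0 F.γ).map ι = !![φ F.α, 0; 0, φ F.β]
    rw [hR0γ, hγ.1, hγ.2, map_one, map_neg, map_one]
    ext i j
    fin_cases i <;> fin_cases j <;> simp
  · show ι (R0 F.r 1 0) = 1
    rw [hr, map_one]

end Rep

end FLTAgent.HeckePoints
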