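import Mathlib.RingTheory.DedekindDomain.IntegralClosure
import Mathlib.RingTheory.DedekindDomain.Dvr
import Mathlib.FieldTheory.IsAlgClosed.AlgebraicClosure
import Mathlib.FieldTheory.IntermediateField.Adjoin.Basic
import Mathlib.FieldTheory.Separable
import Mathlib.RingTheory.LocalRing.ResidueField.Basic
import Mathlib.RingTheory.Ideal.MinimalPrime.Localization
import Fermat.Prelude.Thm_IsLocalRing_isAdicComplete_of_module_finite
import Fermat.Prelude.Thm_Algebra_finite_maximalSpectrum_and_bijective_localization_of_module_finite

/-!
# Points of finite algebras over a complete discrete valuation ring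

A finite torsion free algebra has finitely many points in an algebraic closure, they detect
nilpotent elements, and finitely many of them take values in one complete discrete valuation ring.
-/

set_option autoImplicit false

noncomputable section

open IsLocalRing

namespace FLTAgent.HeckePoints

/-- A finite domain over a complete local ring has a single maximal ideal. -/
theorem isLocalRing_of_finite_domain {O : Type} [CommRing O] [IsLocalRing O] [IsNoetherianRing O]
    [IsAdicComplete (maximalIdeal O) O] (C : Type) [CommRing C] [IsDomain C] [Algebra O C]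
    [Module.Finite O C] : IsLocalRing C := by
  classical
  obtain ⟨-, hbij, -⟩ :=
    Algebra.finite_maximalSpectrum_and_bijective_localization_of_module_finite (𝒪 := O) C
  obtain ⟨m, hm⟩ := Ideal.exists_maximal C
  refine IsLocalRing.of_unique_max_ideal ⟨m, hm, fun m' hm' => ?_⟩
  by_contra hne
  let I : MaximalSpectrum C := ⟨m, hm⟩
  let I' : MaximalSpectrum C := ⟨m', hm'⟩
  have hII : I' ≠ I := fun e => hne (congrArg MaximalSpectrum.asIdeal e)
  obtain ⟨e, he⟩ := hbij.2 (Pi.single I 1)
  obtain ⟨e', he'⟩ := hbij.2 (Pi.single I' 1)
  have h0 : e * e' = 0 := hbij.1 (by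
    rw [map_mul, he, he', map_zero]
    funext J
    rcases eq_or_ne J I with rfl | hJ
    · rw [Pi.mul_apply, Pi.single_eq_of_ne hII.symm, mul_zero, Pi.zero_apply]
    · rw [Pi.mul_apply, Pi.single_eq_of_ne hJ, zero_mul, Pi.zero_apply])
  rcases mul_eq_zero.mp h0 with h | h
  · rw [h, map_zero] at he
    simpa using congrFun he I
  · rw [h, map_zero] at he'
    simpa using congrFun he' I'

variable (O : Type) [CommRing O] [IsDomain O] [IsDiscreteValuationRing O]

/-- The algebraic closure of the fraction field. -/
abbrev Kbar : Type := AlgebraicClosure (FractionRing O)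

/-- The coefficients embed in the chosen algebraic closure. -/
theorem algebraMap_kbar_injective : Function.Injective (algebraMap O (Kbar O)) := by
  rw [IsScalarTower.algebraMap_eq O (FractionRing O) (Kbar O)]
  exact (algebraMap (FractionRing O) (Kbar O)).injective.comp (IsFractionRing.injective O _)

variable (T : Type) [CommRing T] [Algebra O T] [Module.Finite O T]

/-- There are finitely many points. -/
theorem finite_points : Finite (T →ₐ[O] Kbar O) := by
  classical
  obtain ⟨s, hs⟩ := Module.Finite.fg_top (R := O) (M := T)
  have : Module.IsTorsionFree O (Kbar O) :=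
    Module.isTorsionFree_iff_algebraMap_injective.mpr (algebraMap_kbar_injective O)
  have hint : ∀ x : T, IsIntegral O x := IsIntegral.of_finite O
  let R : s → Set (Kbar O) := fun x => {z | Polynomial.aeval z (minpoly O x.1) = 0}
  have hR : ∀ x, (R x).Finite := fun x =>
    ((minpoly O x.1).map (algebraMap O (Kbar O))).roots.toFinset.finite_toSet.subset fun z hz => by
      have hne : (minpoly O x.1).map (algebraMap O (Kbar O)) ≠ 0 :=
        ((minpoly.monic (hint _)).map _).ne_zero
      simp only [Finset.mem_coe, Multiset.mem_toFinset, Polynomial.mem_roots hne]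
      have hz' : Polynomial.aeval z (minpoly O x.1) = 0 := hz
      simpa [Polynomial.IsRoot, Polynomial.eval_map, Polynomial.aeval_def] using hz'
  have : ∀ x, Finite (R x) := fun x => (hR x).to_subtype
  refine Finite.of_injective (fun f : T →ₐ[O] Kbar O => fun x : s => (⟨f x.1, by
    show Polynomial.aeval (f x.1) _ = 0
    rw [Polynomial.aeval_algHom_apply, minpoly.aeval, map_zero]⟩ : R x)) fun f g h => ?_
  refine AlgHom.toLinearMap_injective (LinearMap.ext_on hs fun x hx => ?_)
  exact congrArg Subtype.val (congrFun h ⟨x, hx⟩)

/-- An element vanishing at all points is nilpotent. -/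
theorem isNilpotent_of_forall_point [Module.IsTorsionFree O T] {x : T}
    (hx : ∀ f : T →ₐ[O] Kbar O, f x = 0) : IsNilpotent x := by
  rw [← mem_nilradical, nilradical_eq_sInf]
  refine Submodule.mem_sInf.mpr fun (P : Ideal T) (hP : Ideal.IsPrime P) => ?_
  by_contra hxP
  have : P.IsPrime := hP
  obtain ⟨Q, hQ, hQP⟩ := Ideal.exists_minimalPrimes_le (I := ⊥) (J := P) bot_le
  have : Q.IsPrime := hQ.1.1
  have hinj : Function.Injective (algebraMap O (T ⧸ Q)) := by
    refine (injective_iff_map_eq_zero _).mpr fun o ho => by_contra fun hne => ?_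
    rw [IsScalarTower.algebraMap_apply O T (T ⧸ Q), Ideal.Quotient.algebraMap_eq,
      Ideal.Quotient.eq_zero_iff_mem] at ho
    refine Set.disjoint_left.mp (Ideal.disjoint_nonZeroDivisors_of_mem_minimalPrimes hQ) ho ?_
    refine mem_nonZeroDivisors_iff_right.mpr fun y hy => ?_
    have h1 : o • y = 0 := by rw [Algebra.smul_def, mul_comm, hy]
    exact (smul_eq_zero.mp h1).resolve_left hne
  have : Module.IsTorsionFree O (T ⧸ Q) :=
    Module.isTorsionFree_iff_algebraMap_injective.mpr hinj
  have : Algebra.IsIntegral O (T ⧸ Q) := Algebra.IsIntegral.of_finite O _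
  have : Module.IsTorsionFree O (Kbar O) :=
    Module.isTorsionFree_iff_algebraMap_injective.mpr (algebraMap_kbar_injective O)
  have : Algebra.IsAlgebraic O (T ⧸ Q) := Algebra.IsIntegral.isAlgebraic
  let g : T ⧸ Q →ₐ[O] Kbar O := IsAlgClosed.lift
  have hg : Function.Injective g := by
    refine (injective_iff_map_eq_zero g).mpr fun z hz => ?_
    have hk : (RingHom.ker g.toRingHom).comap (algebraMap O (T ⧸ Q)) = ⊥ :=
      (Submodule.eq_bot_iff _).mpr fun o ho => algebraMap_kbar_injective O (by
        rw [map_zero, ← g.commutes o]; exact ho)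
    have : (RingHom.ker g.toRingHom).IsPrime := RingHom.ker_isPrime _
    have := Ideal.eq_bot_of_comap_eq_bot (R := O) hk
    exact (Submodule.eq_bot_iff _).mp this z hz
  have := hx (g.comp (Ideal.Quotient.mkₐ O Q))
  rw [AlgHom.comp_apply, ← map_zero g] at this
  exact hxP (hQP (Ideal.Quotient.eq_zero_iff_mem.mp (hg this)))

variable [IsAdicComplete (maximalIdeal O) O] [Finite (ResidueField O)] [CharZero O]

/-- A complete discrete valuation ring inside the algebraic closure receiving a given finite set
of integral elements. -/
theorem exists_coeff (s : Set (Kbar O)) (hs : s.Finite) (hint : ∀ z ∈ s, IsIntegral O z) :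
    ∃ (C : Type) (_ : CommRing C) (_ : IsDomain C) (_ : IsDiscreteValuationRing C)
      (_ : IsAdicComplete (maximalIdeal C) C) (_ : Finite (ResidueField C)) (_ : CharZero C)
      (_ : Algebra O C) (_ : Module.Finite O C) (_ : Module.Free O C)
      (_ : IsLocalHom (algebraMap O C)) (j : C →ₐ[O] Kbar O),
      Function.Injective j ∧ Function.Injective (algebraMap O C) ∧ s ⊆ Set.range j := by
  classical
  let K := FractionRing O
  have : CharZero K := charZero_of_injective_ringHom (IsFractionRing.injective O K)
  let E : IntermediateField K (Kbar O) := IntermediateField.adjoin K s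
  have : FiniteDimensional K E :=
    haveI := hs.to_subtype
    IntermediateField.finiteDimensional_adjoin fun z _ => Algebra.IsIntegral.isIntegral z
  let C := integralClosure O E
  have : IsDedekindDomain C := IsIntegralClosure.isDedekindDomain O K E C
  have : Module.Finite O C := IsIntegralClosure.finite O K E C
  have hjE : Function.Injective (algebraMap O E) := by
    rw [IsScalarTower.algebraMap_eq O K E]
    exact (algebraMap K E).injective.comp (IsFractionRing.injective O K)
  have hinj : Function.Injective (algebraMap O C) := fun a b h => hjE (congrArg Subtype.val h)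
  have : Module.IsTorsionFree O C := Module.isTorsionFree_iff_algebraMap_injective.mpr hinj
  have : Module.Free O C := Module.free_of_finite_type_torsion_free'
  have : CharZero C := charZero_of_injective_ringHom hinj
  have : IsLocalRing C := isLocalRing_of_finite_domain (O := O) C
  have : Algebra.IsIntegral O C := Algebra.IsIntegral.of_finite O C
  have : IsLocalHom (algebraMap O C) :=
    (algebraMap_isIntegral_iff.mpr inferInstance).isLocalHom hinj
  have hnf : maximalIdeal C ≠ ⊥ := fun h => by
    obtain ⟨π, hπ⟩ := IsDiscreteValuationRing.exists_irreducible O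
    have : algebraMap O C π ∈ maximalIdeal C := map_nonunit _ _ hπ.not_isUnit
    rw [h, Ideal.mem_bot] at this
    exact hπ.ne_zero (hinj (by rw [this, map_zero]))
  have : IsDiscreteValuationRing C :=
    ((IsDiscreteValuationRing.TFAE C fun hf => hnf
      (IsLocalRing.isField_iff_maximalIdeal_eq.mp hf)).out 0 2).mpr ‹IsDedekindDomain C›
  have : IsAdicComplete (maximalIdeal C) C := IsLocalRing.isAdicComplete_of_module_finite (𝒪 := O)
  have : Finite (ResidueField C) := Module.finite_of_finite (ResidueField O)
  refine ⟨C, inferInstance, inferInstance, inferInstance, inferInstance, inferInstance,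
    inferInstance, inferInstance, inferInstance, inferInstance, inferInstance,
    (E.val.restrictScalars O).comp C.val, fun a b h => Subtype.ext (Subtype.ext h), hinj,
    fun z hz => ⟨⟨⟨z, IntermediateField.subset_adjoin K s hz⟩, ?_⟩, rfl⟩⟩
  exact (isIntegral_algHom_iff (E.val.restrictScalars O) Subtype.val_injective).mp (hint z hz)

/-- A finite extension inside `Kbar O` can be enlarged to contain finitely many more integral
elements. -/
theorem exists_coeff_extend {C : Type} [CommRing C] [Algebra O C] [Module.Finite O C]
    (j : C →ₐ[O] Kbar O) (S : Set (Kbar O)) (hS : S.Finite) (hint : ∀ z ∈ S, IsIntegral O z) :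
    ∃ (C' : Type) (_ : CommRing C') (_ : IsDomain C') (_ : IsDiscreteValuationRing C')
      (_ : IsAdicComplete (maximalIdeal C') C') (_ : Finite (ResidueField C')) (_ : CharZero C')
      (_ : Algebra O C') (_ : Module.Finite O C') (_ : Module.Free O C')
      (_ : IsLocalHom (algebraMap O C')) (i : C →ₐ[O] C') (j' : C' →ₐ[O] Kbar O),
      Function.Injective j' ∧ (∀ y, j' (i y) = j y) ∧ S ⊆ Set.range j' := by
  obtain ⟨s, hs⟩ := Module.Finite.fg_top (R := O) (M := C)
  obtain ⟨C', iC, iD, iV, iA, iF, iZ, iAlg, iFin, iFree, iL, j', hj', -, hsub⟩ :=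
    exists_coeff O (S ∪ j '' (s : Set C)) (hS.union (s.finite_toSet.image j)) (by
      rintro z (hz | ⟨y, -, rfl⟩)
      · exact hint z hz
      · exact (Algebra.IsIntegral.isIntegral (R := O) y).map j)
  have hrange : ∀ y, j y ∈ j'.range := fun y => by
    have hy : y ∈ Submodule.span O (s : Set C) := hs ▸ Submodule.mem_top
    induction hy using Submodule.span_induction with
    | mem z hz => exact hsub (Or.inr ⟨z, hz, rfl⟩)
    | zero => rw [map_zero]; exact zero_mem _
    | add a c _ _ ha hc => rw [map_add]; exact add_mem ha hc
    | smul a c _ hc => rw [map_smul]; exact Subalgebra.smul_mem _ hc a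
  exact ⟨C', iC, iD, iV, iA, iF, iZ, iAlg, iFin, iFree, iL,
    (AlgEquiv.ofInjective j' hj').symm.toAlgHom.comp (j.codRestrict j'.range hrange), j', hj',
    fun y => congrArg Subtype.val ((AlgEquiv.ofInjective j' hj').apply_symm_apply ⟨j y, hrange y⟩),
    fun z hz => hsub (Or.inl hz)⟩

end FLTAgent.HeckePoints
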