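import Fermat.Agent.ModularityLifting.CharSymbols
import Mathlib.LinearAlgebra.Eigenspace.Triangularizable
import Mathlib.LinearAlgebra.FiniteDimensional.Lemmas

/-!
# The operators `U_q` on symbols with a character

`U_q` preserves the symbols with character and commutes with the good `T_ℓ`; over an algebraically
closed field a common eigensymbol may be chosen to be one of `U_q` too (`exists_uOp_eigen`).
-/

set_option autoImplicit false

noncomputable section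

namespace FLTAgent.HeckePoints

open FLTAgent.LevelRaising FLTAgent.ModularityLifting CongruenceSubgroup Matrix
open scoped MatrixGroups

variable {R : Type} [CommRing R] {L : ℕ} {δ : DirichletCharacter R L}

theorem uOp_eq_sum (q : ℕ) (Φ : Cusp → Cusp → R) :
    uOp R q Φ = ∑ j : Fin q, wpull δ (heckeFam q (some j)) Φ := by
  simp [uOp, pullFam_apply, wpull_apply]

theorem uOp_mem_symbChar {q : ℕ} (hq : q.Prime) (hqL : q ∣ L) {Φ : Cusp → Cusp → R}
    (hΦ : Φ ∈ SymbChar R δ) : uOp R q Φ ∈ SymbChar R δ := by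
  refine mem_symbChar_of_pull (pullFam_additive _ hΦ.1) fun γ hγ => ?_
  rw [uOp_eq_sum (δ := δ), map_sum, Finset.sum_congr rfl fun j _ =>
    pull_glQ_wpull hγ (heckeFam_det_ne_zero hq.ne_zero (some j)) Φ, ← Finset.smul_sum]
  congr 1
  refine sum_wpull_eq hΦ rfl _ _ (fun j => heckeFam_det_ne_zero hq.ne_zero _)
    (fun j => by rw [heckeFam_lower]; exact dvd_zero _) (fun j => ?_) fun j j' γ' _ he => ?_
  · refine exists_gamma_mul_heckeFam_some hq ?_ ?_ ?_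
    · rw [Matrix.det_mul, heckeFam_det, γ.det_coe, mul_one]
    · rw [Matrix.mul_apply, Fin.sum_univ_two, heckeFam_lower, zero_mul, zero_add]
      exact dvd_mul_of_dvd_right (mem_Gamma0_iff_dvd.mp hγ) _
    · have hq' : (q : ℤ) ∣ γ 1 0 :=
        (Int.natCast_dvd_natCast.mpr hqL).trans (mem_Gamma0_iff_dvd.mp hγ)
      rw [Matrix.mul_apply, Fin.sum_univ_two]
      simp only [heckeFam_some, Matrix.cons_val', Matrix.cons_val_zero, Matrix.cons_val_one,
        Matrix.cons_val_fin_one, Matrix.of_apply, one_mul]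
      intro h
      exact not_dvd_corner hq hqL hγ ((dvd_add_left (dvd_mul_of_dvd_right hq' _)).mp h)
  · rw [← mul_assoc] at he
    refine Option.some_injective _ (heckeFam_right_unique hq (δ₁ := 1) (δ₂ := (γ' : M2)) ?_
      (not_dvd_det_SL hq γ') ?_)
    · rw [Matrix.det_one]; exact not_prime_dvd_one hq
    · rw [one_mul]; exact mul_sl_inj he

theorem tOpChar_uOp_comm {ℓ q : ℕ} (hℓ : ℓ.Prime) (hq : q.Prime) (hℓL : ¬ ℓ ∣ L) (hqL : q ∣ L)
    {Φ : Cusp → Cusp → R} (hΦ : Φ ∈ SymbChar R δ) :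
    tOpChar R δ ℓ (uOp R q Φ) = uOp R q (tOpChar R δ ℓ Φ) := by
  have hne : ℓ ≠ q := fun h => hℓL (h ▸ hqL)
  symm
  rw [uOp_eq_sum (δ := δ), uOp_eq_sum (δ := δ)]
  simp only [tOpChar_eq_sum, map_sum, wpull_heckeFam_comp hℓ.ne_zero hq.ne_zero,
    wpull_heckeFam_comp hq.ne_zero hℓ.ne_zero]
  rw [← Fintype.sum_prod_type', ← Fintype.sum_prod_type']
  refine sum_wpull_eq hΦ (by simp) _ _ ?_ ?_ ?_ ?_
  · intro k
    rw [Matrix.det_mul, heckeFam_det, heckeFam_det]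
    exact mul_ne_zero (by exact_mod_cast hq.ne_zero) (by exact_mod_cast hℓ.ne_zero)
  · intro k
    rw [Matrix.mul_apply, Fin.sum_univ_two, heckeFam_lower, heckeFam_lower, zero_mul, mul_zero,
      add_zero]
    exact dvd_zero _
  · rintro ⟨j, i⟩
    obtain ⟨k', i', γ, hγ, he⟩ := exists_gamma_mul_heckeFam_swap hℓ hq hℓL hqL i j
    exact ⟨(k', i'), γ, hγ, he⟩
  · rintro ⟨j, i⟩ ⟨j', i'⟩ γ _ he
    obtain ⟨rfl, rfl⟩ := heckeFam_mul_right_unique hℓ hq hne γ he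
    rfl

/-- A common eigensymbol for the good operators can be chosen to be one for `U_q` as well. -/
theorem exists_uOp_eigen {K : Type} [Field K] [IsAlgClosed K] [NeZero L]
    {δ : DirichletCharacter K L} {q : ℕ} (hq : q.Prime) (hqL : q ∣ L) (S : Finset ℕ)
    (hS : ∀ l, l.Prime → l ∣ L → l ∈ S) (a : ℕ → K) {Φ : Cusp → Cusp → K}
    (hΦ : Φ ∈ SymbChar K δ) (hne : Φ ≠ 0)
    (ha : ∀ l, l.Prime → l ∉ S → tOpChar K δ l Φ = a l • Φ) :
    ∃ Ψ ∈ SymbChar K δ, Ψ ≠ 0 ∧ (∀ l, l.Prime → l ∉ S → tOpChar K δ l Ψ = a l • Ψ) ∧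
      ∃ b : K, uOp K q Ψ = b • Ψ := by
  classical
  let V : Submodule K (Cusp → Cusp → K) := SymbChar K δ ⊓
    ⨅ (l : ℕ) (_ : l.Prime ∧ l ∉ S), LinearMap.ker (tOpChar K δ l - a l • LinearMap.id)
  have hV : ∀ Ψ, Ψ ∈ V ↔ Ψ ∈ SymbChar K δ ∧
      ∀ l, l.Prime → l ∉ S → tOpChar K δ l Ψ = a l • Ψ := fun Ψ => by
    simp [V, Submodule.mem_iInf, sub_eq_zero]
  have hmap : ∀ Ψ ∈ V, uOp K q Ψ ∈ V := fun Ψ h => by
    obtain ⟨h1, h2⟩ := (hV Ψ).mp h
    refine (hV _).mpr ⟨uOp_mem_symbChar hq hqL h1, fun l hl hlS => ?_⟩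
    rw [tOpChar_uOp_comm hl hq (fun h => hlS (hS l hl h)) hqL h1, h2 l hl hlS, map_smul]
  have := finite_symbChar (R := K) δ
  have : Module.Finite K V := Submodule.finiteDimensional_of_le inf_le_left
  have : Nontrivial V := ⟨⟨Φ, (hV Φ).mpr ⟨hΦ, ha⟩⟩, 0, fun h => hne (congrArg Subtype.val h)⟩
  obtain ⟨b, hb⟩ := Module.End.exists_eigenvalue ((uOp K q).restrict hmap)
  obtain ⟨Ψ, hΨ⟩ := hb.exists_hasEigenvector
  obtain ⟨h1, h2⟩ := (hV Ψ.1).mp Ψ.2
  exact ⟨Ψ.1, h1, fun h => hΨ.2 (Subtype.ext h), h2, b,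
    congrArg Subtype.val (Module.End.HasEigenvector.apply_eq_smul hΨ)⟩

end FLTAgent.HeckePoints
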