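import Fermat.Agent.ModularityLifting.Points.EigenBasis
import Fermat.Agent.ModularityLifting.Points.UChar
import Fermat.Agent.ModularityLifting.EigenFree

/-!
# Bases of the eigenparts and the matrices of the Hecke operators

`EigenBasis` is a residually independent basis of an eigenpart with its certificate; bases exist
(`exists_eigenBasis_of_hell`), `tMat` and `uMat` are the matrices of `T_ℓ` and `U_q` in it, and
bases with the same reduction give congruent matrices.
-/

set_option autoImplicit false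

noncomputable section

open IsLocalRing Matrix

namespace FLTAgent.HeckePoints

open FLTAgent.LevelRaising FLTAgent.ModularityLifting

variable {A : Type} [CommRing A] [IsLocalRing A] {L : ℕ}

/-- A basis of an eigenpart, residually independent, with a certificate. -/
structure EigenBasis (δ : DirichletCharacter A L) (S : Finset ℕ) (a : ℕ → A) (d : ℕ) where
  b : Fin d → Cusp → Cusp → A
  pts : Fin d → Cusp × Cusp
  mem : ∀ i, b i ∈ eigenPart A δ S a
  isUnit_det : IsUnit (valueMat b pts).det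
  span : ∀ Φ ∈ eigenPart A δ S a, ∃ v, comb b v = Φ

variable [IsNoetherianRing A] [NeZero L] {δ : DirichletCharacter A L} {S : Finset ℕ} {a : ℕ → A}
  {d : ℕ}

/-- Lifts of a residual basis form a basis. -/
theorem exists_eigenBasis_of_residual (hS : ∀ q, q.Prime → q ∣ L → q ∈ S)
    (b : Fin d → Cusp → Cusp → A) (hb : ∀ i, b i ∈ eigenPart A δ S a)
    (hli : LinearIndependent (ResidueField A) fun i => mapVal (residue A) (b i))
    (hspan : eigenPart (ResidueField A) (δ.ringHomComp (residue A)) S (residue A ∘ a) ≤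
      Submodule.span (ResidueField A) (Set.range fun i => mapVal (residue A) (b i))) :
    ∃ B : EigenBasis δ S a d, B.b = b := by
  obtain ⟨pts, hpts⟩ := exists_isUnit_valueMat b hli
  refine ⟨⟨b, pts, hb, hpts, fun Φ hΦ => ?_⟩, rfl⟩
  obtain ⟨c, hc⟩ := (Submodule.mem_span_range_iff_exists_fun A).mp
    (eigenPart_le_span hS hb hli hspan hΦ)
  exact ⟨c, by rw [comb_apply]; exact hc⟩

section Existence

variable (p : ℕ) [Fact p.Prime] [IsAdicComplete (maximalIdeal A) A] [Finite (ResidueField A)]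
  [CharP (ResidueField A) p]

/-- The eigenpart has a basis, reducing to a basis of the residual eigenpart; for `p = 3` the
level has a prime `≡ 2 (mod 3)`. -/
theorem exists_eigenBasis_of_hell (hp2 : p ≠ 2)
    (hell : p = 3 → ∃ t, t.Prime ∧ t ∣ L ∧ t % 3 = 2)
    (hδ : ∀ u : (ZMod L)ˣ, ∃ k, δ u ^ p ^ k = 1) (hS : ∀ q, q.Prime → q ∣ L * p → q ∈ S)
    (hne : ∃ ℓ, ℓ.Prime ∧ ℓ ∉ S ∧ ℓ % L = 1 % L ∧ residue A (a ℓ) ≠ residue A (1 + ℓ)) :
    ∃ B : EigenBasis δ S a (Module.finrank (ResidueField A)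
        (eigenPart (ResidueField A) (δ.ringHomComp (residue A)) S (residue A ∘ a))),
      LinearIndependent (ResidueField A) (fun i => mapVal (residue A) (B.b i)) ∧
      eigenPart (ResidueField A) (δ.ringHomComp (residue A)) S (residue A ∘ a) ≤
        Submodule.span (ResidueField A) (Set.range fun i => mapVal (residue A) (B.b i)) := by
  classical
  have hSL : ∀ q, q.Prime → q ∣ L → q ∈ S := fun q hq h => hS q hq (h.mul_right p)
  obtain ⟨-, -, hbc⟩ := eigenPart_free_baseChange p hp2 δ hδ hell S hS a hne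
  obtain ⟨hlift, -⟩ := hbc (ResidueField A) (residue A) residue_surjective
  set k := ResidueField A
  set V := eigenPart k (δ.ringHomComp (residue A)) S (residue A ∘ a)
  have := finite_symbChar (R := k) (δ.ringHomComp (residue A))
  have : Module.Finite k V := Module.Finite.of_injective
    (Submodule.inclusion (fun v hv => ((mem_eigenPart_iff hSL).mp hv).1 :
      V ≤ SymbChar k (δ.ringHomComp (residue A)))) (Submodule.inclusion_injective _)
  set bb := Module.finBasis k V
  choose b hb hbr using fun i => hlift _ (bb i).2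
  have hres : (fun i => mapVal (residue A) (b i)) = fun i => (bb i : Cusp → Cusp → k) := funext hbr
  have hli : LinearIndependent k fun i => mapVal (residue A) (b i) := by
    rw [hres]; exact bb.linearIndependent.map' V.subtype (Submodule.ker_subtype _)
  have hspan : V ≤ Submodule.span k (Set.range fun i => mapVal (residue A) (b i)) := by
    rw [hres]
    intro v hv
    have h := congrArg V.subtype (bb.sum_repr ⟨v, hv⟩)
    simp only [map_sum, map_smul, Submodule.subtype_apply] at h
    rw [← h]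
    exact Submodule.sum_mem _ fun i _ => Submodule.smul_mem _ _ (Submodule.subset_span ⟨i, rfl⟩)
  obtain ⟨B, rfl⟩ := exists_eigenBasis_of_residual hSL b hb hli hspan
  exact ⟨B, hli, hspan⟩

end Existence

omit [IsNoetherianRing A] [NeZero L] in
/-- An operator commuting with the good Hecke operators preserves the eigenpart. -/
theorem mem_eigenPart_of_comm (hS : ∀ q, q.Prime → q ∣ L → q ∈ S)
    (f : (Cusp → Cusp → A) →ₗ[A] (Cusp → Cusp → A))
    (hf : ∀ Φ ∈ SymbChar A δ, f Φ ∈ SymbChar A δ)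
    (hcomm : ∀ l, l.Prime → l ∉ S → ∀ Φ ∈ SymbChar A δ,
      tOpChar A δ l (f Φ) = f (tOpChar A δ l Φ))
    {Φ : Cusp → Cusp → A} (hΦ : Φ ∈ eigenPart A δ S a) : f Φ ∈ eigenPart A δ S a := by
  obtain ⟨h1, h2⟩ := (mem_eigenPart_iff hS).mp hΦ
  refine (mem_eigenPart_iff hS).mpr ⟨hf _ h1, fun l hl hlS n => ?_⟩
  have hlL : ¬ l ∣ L := fun h => hlS (hS l hl h)
  obtain ⟨j, hj⟩ := h2 l hl hlS n
  refine ⟨j, ?_⟩
  have key : ∀ m, (shiftOp A δ l (a l) ^ m) (f Φ) = f ((shiftOp A δ l (a l) ^ m) Φ) := by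
    intro m
    induction m with
    | zero => simp
    | succ m ih =>
      rw [pow_succ', Module.End.mul_apply, Module.End.mul_apply, ih, shiftOp_apply, shiftOp_apply,
        hcomm l hl hlS _ (pow_shiftOp_mem hl hlL _ m h1), map_sub, map_smul]
  rw [key]
  have h3 := Submodule.mem_map_of_mem (f := f) hj
  rw [Submodule.map_smul''] at h3
  exact Submodule.smul_mono le_rfl (Submodule.map_le_iff_le_comap.mpr hf) h3

namespace EigenBasis

variable (B : EigenBasis δ S a d)

omit [IsNoetherianRing A] [NeZero L] in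
theorem mem_symbChar (i : Fin d) : B.b i ∈ SymbChar A δ := (B.mem i).1

omit [IsNoetherianRing A] [NeZero L] in
theorem comb_inj : Function.Injective (comb B.b) := comb_injective B.isUnit_det (RingHom.id A)

open scoped Classical in
/-- The matrix of an operator. -/
def opMat (f : (Cusp → Cusp → A) →ₗ[A] (Cusp → Cusp → A)) : Matrix (Fin d) (Fin d) A :=
  Matrix.of fun i j => if h : ∃ v, comb B.b v = f (B.b j) then h.choose i else 0

omit [IsNoetherianRing A] [NeZero L] in
theorem apply_b {f : (Cusp → Cusp → A) →ₗ[A] (Cusp → Cusp → A)}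
    (hf : ∀ Φ ∈ eigenPart A δ S a, f Φ ∈ eigenPart A δ S a) (j : Fin d) :
    f (B.b j) = comb B.b ((B.opMat f).col j) := by
  have h : ∃ v, comb B.b v = f (B.b j) := B.span _ (hf _ (B.mem j))
  have e : (B.opMat f).col j = h.choose := funext fun i => by
    simp only [opMat, Matrix.col, Matrix.transpose_apply, Matrix.of_apply, dif_pos h]
  rw [e, h.choose_spec]

/-- The matrix of `T_ℓ`. -/
def tMat (l : ℕ) : Matrix (Fin d) (Fin d) A := B.opMat (tOpChar A δ l)

/-- The matrix of `U_q`. -/
def uMat (q : ℕ) : Matrix (Fin d) (Fin d) A := B.opMat (uOp A q)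

variable (hS : ∀ q, q.Prime → q ∣ L → q ∈ S)
include hS

omit [IsNoetherianRing A] [NeZero L] in
theorem tOp_mem_part {l : ℕ} (hl : l.Prime) (hlL : ¬ l ∣ L) {Φ : Cusp → Cusp → A}
    (hΦ : Φ ∈ eigenPart A δ S a) : tOpChar A δ l Φ ∈ eigenPart A δ S a :=
  mem_eigenPart_of_comm hS _ (fun _ h => tOpChar_mem hl hlL h)
    (fun _ hm hmS _ h => tOpChar_comm hm hl (fun h => hmS (hS _ hm h)) hlL h) hΦ

omit [IsNoetherianRing A] [NeZero L] in
theorem uOp_mem_part {q : ℕ} (hq : q.Prime) (hqL : q ∣ L) {Φ : Cusp → Cusp → A}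
    (hΦ : Φ ∈ eigenPart A δ S a) : uOp A q Φ ∈ eigenPart A δ S a :=
  mem_eigenPart_of_comm hS _ (fun _ h => uOp_mem_symbChar hq hqL h)
    (fun _ hm hmS _ h => tOpChar_uOp_comm hm hq (fun h => hmS (hS _ hm h)) hqL h) hΦ

omit [IsNoetherianRing A] [NeZero L] in
theorem tOp_b {l : ℕ} (hl : l.Prime) (hlL : ¬ l ∣ L) (j : Fin d) :
    tOpChar A δ l (B.b j) = comb B.b ((B.tMat l).col j) :=
  B.apply_b (fun _ h => tOp_mem_part hS hl hlL h) j

omit [IsNoetherianRing A] [NeZero L] in
theorem uOp_b {q : ℕ} (hq : q.Prime) (hqL : q ∣ L) (j : Fin d) :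
    uOp A q (B.b j) = comb B.b ((B.uMat q).col j) :=
  B.apply_b (fun _ h => uOp_mem_part hS hq hqL h) j

omit [IsNoetherianRing A] [NeZero L] in
theorem tMat_comm {l m : ℕ} (hl : l.Prime) (hlL : ¬ l ∣ L) (hm : m.Prime) (hmL : ¬ m ∣ L) :
    B.tMat l * B.tMat m = B.tMat m * B.tMat l :=
  mul_comm_of_rel B.isUnit_det _ _ _ _ (B.tOp_b hS hl hlL) (B.tOp_b hS hm hmL)
    fun j => tOpChar_comm hl hm hlL hmL (B.mem_symbChar j)

omit [IsNoetherianRing A] [NeZero L] in
theorem tMat_uMat_comm {l q : ℕ} (hl : l.Prime) (hlL : ¬ l ∣ L) (hq : q.Prime) (hqL : q ∣ L) :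
    B.tMat l * B.uMat q = B.uMat q * B.tMat l :=
  mul_comm_of_rel B.isUnit_det _ _ _ _ (B.tOp_b hS hl hlL) (B.uOp_b hS hq hqL)
    fun j => tOpChar_uOp_comm hl hq hlL hqL (B.mem_symbChar j)

omit [IsNoetherianRing A] [NeZero L] in
/-- Outside `S` the operators are residually nilpotent after subtracting the eigenvalue. -/
theorem isNilpotent_residual {l : ℕ} (hl : l.Prime) (hlS : l ∉ S) :
    IsNilpotent ((residue A).mapMatrix (B.tMat l - Matrix.scalar (Fin d) (a l))) := by
  classical
  have hlL : ¬ l ∣ L := fun h => hlS (hS l hl h)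
  set N := B.tMat l - Matrix.scalar (Fin d) (a l) with hN
  set f : (Cusp → Cusp → A) →ₗ[A] (Cusp → Cusp → A) := shiftOp A δ l (a l)
  have hstep : ∀ v, f (comb B.b v) = comb B.b (N *ᵥ v) := by
    intro v
    have h := apply_comb (b := B.b) (RingHom.id A) (tOpChar A δ l) (tOpChar A δ l)
      (fun _ => rfl) (B.tOp_b hS hl hlL) v
    have hv : N *ᵥ v = B.tMat l *ᵥ v - a l • v := by
      rw [hN, Matrix.sub_mulVec]
      congr 1
      funext i
      simp [Matrix.mulVec_diagonal]
    rw [shiftOp_apply, hv, map_sub, map_smul]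
    congr 1
  have hpow : ∀ (m : ℕ) v, (f ^ m) (comb B.b v) = comb B.b ((N ^ m) *ᵥ v) := by
    intro m
    induction m with
    | zero => intro v; simp
    | succ m ih =>
      intro v
      rw [pow_succ', Module.End.mul_apply, ih, hstep, mulVec_mulVec, ← pow_succ']
  choose j hj using fun i => ((mem_eigenPart_iff hS).mp (B.mem i)).2 l hl hlS 1
  refine ⟨Finset.univ.sup j, Matrix.ext_of_mulVec_single fun i => ?_⟩
  have hi : (f ^ Finset.univ.sup j) (B.b i) ∈ maximalIdeal A • SymbChar A δ := by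
    obtain ⟨m, hm⟩ := Nat.exists_eq_add_of_le (Finset.le_sup (f := j) (Finset.mem_univ i))
    rw [hm, add_comm, pow_add, Module.End.mul_apply]
    have h := hj i
    rw [pow_one] at h
    have h3 := Submodule.mem_map_of_mem (f := f ^ m) h
    rw [Submodule.map_smul''] at h3
    exact Submodule.smul_mono le_rfl
      (Submodule.map_le_iff_le_comap.mpr fun Ψ hΨ =>
        Submodule.mem_comap.mpr (pow_shiftOp_mem (δ := δ) hl hlL (a l) m hΨ)) h3
  have hb : B.b i = comb B.b (Pi.single i 1) := by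
    rw [comb_apply, Finset.sum_eq_single i (fun k _ hk => by simp [Pi.single_eq_of_ne hk])
      (by simp)]
    simp
  rw [hb, hpow] at hi
  refine comb_injective B.isUnit_det (residue A) (funext fun x => funext fun y => ?_)
  rw [Matrix.zero_mulVec, map_zero, ← map_pow]
  have h0 : residue A (comb B.b ((N ^ Finset.univ.sup j) *ᵥ Pi.single i 1) x y) = 0 :=
    (residue_eq_zero_iff _).mpr (apply_mem_of_mem_smul hi x y)
  rw [comb_apply] at h0 ⊢
  simpa [Finset.sum_apply, mapVal, map_sum, Matrix.mulVec_single_one] using h0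

omit [IsNoetherianRing A] [NeZero L] in
/-- Bases with the same reduction give congruent matrices. -/
theorem map_tMat_eq {δ' : DirichletCharacter A L} {a' : ℕ → A} (B' : EigenBasis δ' S a' d)
    {A' : Type} [CommRing A'] (φ : A →+* A') (hδ : δ.ringHomComp φ = δ'.ringHomComp φ)
    (hb : ∀ i, mapVal φ (B.b i) = mapVal φ (B'.b i)) {l : ℕ} (hl : l.Prime) (hlL : ¬ l ∣ L) :
    (B.tMat l).map φ = (B'.tMat l).map φ := by
  refine Matrix.ext_of_mulVec_single fun i => comb_injective B.isUnit_det φ ?_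
  rw [← apply_comb φ (tOpChar A δ l) (tOpChar A' (δ.ringHomComp φ) l)
    (fun Φ => mapVal_tOpChar φ l Φ) (B.tOp_b hS hl hlL)]
  rw [show (fun j => mapVal φ (B.b j)) = fun j => mapVal φ (B'.b j) from funext hb, hδ]
  exact apply_comb φ (tOpChar A δ' l) (tOpChar A' (δ'.ringHomComp φ) l)
    (fun Φ => mapVal_tOpChar φ l Φ) (B'.tOp_b hS hl hlL) _

end EigenBasis

end FLTAgent.HeckePoints
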