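import Fermat.Agent.ModularityLifting.Twist
import Fermat.Agent.ModularityLifting.Points.UChar
import Mathlib.Algebra.BigOperators.Group.Finset.Basic

/-!
# Twisting away the character at several primes

`exists_twist` and `exists_twist_trivial`: an eigensymbol with character `∏ (χ t) ^ 2` gives one
with trivial character, the eigenvalues being multiplied by the inverse characters.
-/

set_option autoImplicit false

noncomputable section

namespace FLTAgent.HeckePoints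

open FLTAgent.LevelRaising FLTAgent.ModularityLifting

variable {R : Type} [CommRing R]

/-- Characters of equal levels with the same values give the same symbols and operators. -/
theorem symbChar_congr {L L' : ℕ} (h : L = L') (δ : DirichletCharacter R L)
    (δ' : DirichletCharacter R L')
    (hv : ∀ d : ℤ, IsUnit (d : ZMod L) → δ (d : ZMod L) = δ' (d : ZMod L')) :
    SymbChar R δ = SymbChar R δ' ∧ ∀ ℓ, tOpChar R δ ℓ = tOpChar R δ' ℓ := by
  subst h
  have : δ = δ' := MulChar.ext fun u => by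
    obtain ⟨d, hd⟩ := ZMod.intCast_surjective (u : ZMod L)
    rw [← hd]
    exact hv d (hd.symm ▸ u.isUnit)
  subst this
  exact ⟨rfl, fun _ => rfl⟩

theorem isUnit_of_dvd {L M : ℕ} (h : M ∣ L) {d : ℤ} (hd : IsUnit (d : ZMod L)) :
    IsUnit (d : ZMod M) := by
  have := hd.map (ZMod.castHom h (ZMod M))
  rwa [map_intCast] at this

theorem mulChar_prod_apply {A ι : Type} [CommMonoid A] (s : Finset ι) (f : ι → MulChar A R)
    {x : A} (hx : IsUnit x) : (∏ i ∈ s, f i) x = ∏ i ∈ s, f i x := by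
  classical
  induction s using Finset.induction_on with
  | empty => rw [Finset.prod_empty, Finset.prod_empty, MulChar.one_apply hx]
  | insert i s hi ih => rw [Finset.prod_insert hi, Finset.prod_insert hi, MulChar.mul_apply, ih]

variable [IsDomain R] [CharZero R]

/-- An injective twisting map removing squares of characters at the primes of `T`. -/
theorem exists_twistMap (T : Finset ℕ) : ∀ (_ : ∀ t ∈ T, t.Prime)
    (χ : ∀ t, DirichletCharacter R t) (_ : ∀ t ∈ T, χ t ^ 2 ≠ 1) (M : ℕ) (_ : M ≠ 0)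
    (_ : ∀ t ∈ T, ¬ t ∣ M) (δ' : DirichletCharacter R M)
    (δ : DirichletCharacter R (M * ∏ t ∈ T, t))
    (_ : ∀ d : ℤ, IsUnit (d : ZMod (M * ∏ t ∈ T, t)) →
      δ (d : ZMod (M * ∏ t ∈ T, t)) = δ' (d : ZMod M) * ∏ t ∈ T, χ t (d : ZMod t) ^ 2),
    ∃ F : (Cusp → Cusp → R) →ₗ[R] (Cusp → Cusp → R),
      (∀ Φ ∈ SymbChar R δ, F Φ ∈ SymbChar R
        (DirichletCharacter.changeLevel (dvd_mul_right M (∏ t ∈ T, t ^ 2)) δ')) ∧
      (∀ Φ ∈ SymbChar R δ, F Φ = 0 → Φ = 0) ∧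
      (∀ l, l.Prime → ¬ l ∣ M * ∏ t ∈ T, t → ∀ Φ ∈ SymbChar R δ,
        tOpChar R (DirichletCharacter.changeLevel (dvd_mul_right M (∏ t ∈ T, t ^ 2)) δ') l (F Φ) =
          (∏ t ∈ T, (χ t)⁻¹ (l : ZMod t)) • F (tOpChar R δ l Φ)) ∧
      ∀ r, r.Prime → (∀ t ∈ T, r ≠ t) → ∀ Φ ∈ SymbChar R δ,
        uOp R r (F Φ) = (∏ t ∈ T, (χ t)⁻¹ (r : ZMod t)) • F (uOp R r Φ) := by
  classical
  induction T using Finset.induction_on with
  | empty =>
    intro _ χ _ M _ _ δ' δ hδ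
    obtain ⟨e1, e2⟩ := symbChar_congr (L := M * ∏ t ∈ (∅ : Finset ℕ), t)
      (L' := M * ∏ t ∈ (∅ : Finset ℕ), t ^ 2) (by simp) δ
      (DirichletCharacter.changeLevel (dvd_mul_right M (∏ t ∈ (∅ : Finset ℕ), t ^ 2)) δ')
      fun d hd => by
        rw [hδ d hd, changeLevel_intCast _ _ _
          (isUnit_of_dvd (dvd_of_eq (by simp)) hd), Finset.prod_empty, mul_one]
    exact ⟨LinearMap.id, fun Φ hΦ => e1 ▸ hΦ, fun _ _ h => h, fun l _ _ Φ _ => by
      rw [← e2]; simp, fun r _ _ Φ _ => by simp⟩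
  | insert t T htT ih =>
    intro hT χ hχ M hM0 hM δ' δ hδ
    have htP : t.Prime := hT t (Finset.mem_insert_self _ _)
    have hT' : ∀ s ∈ T, s.Prime := fun s hs => hT s (Finset.mem_insert_of_mem hs)
    set P := ∏ s ∈ T, s with hP
    have hP0 : P ≠ 0 := Finset.prod_ne_zero_iff.mpr fun s hs => (hT' s hs).ne_zero
    have hL : M * ∏ s ∈ insert t T, s = M * P * t := by
      rw [Finset.prod_insert htT, hP]; ring
    have htMP : ¬ t ∣ M * P := fun h => (htP.dvd_mul.mp h).elim (hM t (Finset.mem_insert_self _ _))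
      fun h => by
        obtain ⟨s, hs, hts⟩ := htP.prime.exists_mem_finset_dvd h
        exact htT ((Nat.prime_dvd_prime_iff_eq htP (hT' s hs)).mp hts ▸ hs)
    let χ' : DirichletCharacter R (M * P) := DirichletCharacter.changeLevel (dvd_mul_right M P) δ' *
      ∏ s ∈ T.attach, DirichletCharacter.changeLevel
        ((Finset.dvd_prod_of_mem _ s.2).mul_left M) (χ s.1 ^ 2)
    have hχ' : ∀ d : ℤ, IsUnit (d : ZMod (M * P)) →
        χ' (d : ZMod (M * P)) = δ' (d : ZMod M) * ∏ s ∈ T, χ s (d : ZMod s) ^ 2 := by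
      intro d hd
      rw [MulChar.mul_apply, changeLevel_intCast _ _ _ hd, mulChar_prod_apply _ _ hd]
      congr 1
      rw [← Finset.prod_attach T fun s => χ s (d : ZMod s) ^ 2]
      refine Finset.prod_congr rfl fun s _ => ?_
      rw [changeLevel_intCast _ _ _ hd, MulChar.pow_apply' _ two_ne_zero]
    obtain ⟨e1, e2⟩ := symbChar_congr hL δ (twistChar (χ t) χ') fun d hd => by
      have hd' : IsUnit (d : ZMod (M * P * t)) := isUnit_of_dvd hL.symm.dvd hd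
      rw [hδ d hd, twistChar_intCast (χ t) χ' hd',
        hχ' d (isUnit_of_dvd (dvd_mul_right _ _) hd'), Finset.prod_insert htT]
      ring
    have hχt := hχ t (Finset.mem_insert_self _ _)
    have hM' : M * t ^ 2 ≠ 0 := mul_ne_zero hM0 (pow_ne_zero _ htP.ne_zero)
    have hL2 : M * P * t ^ 2 = M * t ^ 2 * P := by ring
    set δ₁ : DirichletCharacter R (M * t ^ 2) :=
      DirichletCharacter.changeLevel (dvd_mul_right M (t ^ 2)) δ'
    set δ₂ : DirichletCharacter R (M * t ^ 2 * P) :=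
      DirichletCharacter.changeLevel (hL2 ▸ dvd_mul_right (M * P) (t ^ 2)) χ'
    obtain ⟨f1, f2⟩ := symbChar_congr hL2
      (DirichletCharacter.changeLevel (dvd_mul_right (M * P) (t ^ 2)) χ') δ₂ fun d hd => by
        rw [changeLevel_intCast _ _ _ hd, changeLevel_intCast _ _ _ (isUnit_of_dvd hL2.symm.dvd hd)]
    obtain ⟨F, hF1, hF2, hF3, hF4⟩ := ih hT' χ (fun s hs => hχ s (Finset.mem_insert_of_mem hs))
      (M * t ^ 2) hM'
      (fun s hs h => ((hT' s hs).dvd_mul.mp h).elim (hM s (Finset.mem_insert_of_mem hs)) fun h =>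
        htT ((Nat.prime_dvd_prime_iff_eq (hT' s hs) htP).mp ((hT' s hs).dvd_of_dvd_pow h) ▸ hs))
      δ₁ δ₂
      (fun d hd => by
        rw [changeLevel_intCast _ _ _ hd,
          hχ' d (isUnit_of_dvd ⟨t ^ 2, hL2.symm⟩ hd),
          changeLevel_intCast _ _ _ (isUnit_of_dvd (dvd_mul_right _ _) hd)])
    have hL3 : M * t ^ 2 * ∏ s ∈ T, s ^ 2 = M * ∏ s ∈ insert t T, s ^ 2 := by
      rw [Finset.prod_insert htT]; ring
    obtain ⟨g1, g2⟩ := symbChar_congr hL3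
      (DirichletCharacter.changeLevel (dvd_mul_right (M * t ^ 2) (∏ s ∈ T, s ^ 2)) δ₁)
      (DirichletCharacter.changeLevel (dvd_mul_right M (∏ s ∈ insert t T, s ^ 2)) δ') fun d hd => by
        rw [changeLevel_intCast _ _ _ hd,
          changeLevel_intCast _ _ _ (isUnit_of_dvd (dvd_mul_right _ _) hd),
          changeLevel_intCast _ _ _ (isUnit_of_dvd hL3.symm.dvd hd)]
    have hmem : ∀ Φ ∈ SymbChar R δ, twistOp R (χ t) Φ ∈ SymbChar R δ₂ := fun Φ hΦ =>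
      f1 ▸ twistOp_mem htP (χ t) χ' (e1 ▸ hΦ)
    refine ⟨F ∘ₗ twistOp R (χ t), fun Φ hΦ => g1 ▸ hF1 _ (hmem Φ hΦ), fun Φ hΦ h =>
      eq_zero_of_twistOp_eq_zero' htP htMP (χ t) χ' hχt (e1 ▸ hΦ) (hF2 _ (hmem Φ hΦ) h),
      fun l hl hlL Φ hΦ => ?_, fun r hr hrT Φ hΦ => ?_⟩
    have hlMPt : ¬ l ∣ M * P * t := hL ▸ hlL
    have hl2 : ¬ l ∣ M * t ^ 2 * P := fun h => hlMPt (by
      rcases hl.dvd_mul.mp h with h | h
      · rcases hl.dvd_mul.mp h with h | h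
        · exact (h.mul_right P).mul_right t
        · exact (hl.dvd_of_dvd_pow h).mul_left _
      · exact (h.mul_left M).mul_right t)
    rw [← g2, LinearMap.comp_apply, LinearMap.comp_apply, hF3 l hl hl2 _ (hmem Φ hΦ), ← f2,
      tOpChar_twistOp htP (χ t) χ' hl hlMPt (e1 ▸ hΦ), map_smul, smul_smul, ← e2,
      Finset.prod_insert (f := fun s => (χ s)⁻¹ (l : ZMod s)) htT, mul_comm]
    rw [LinearMap.comp_apply, LinearMap.comp_apply,
      hF4 r hr (fun s hs => hrT s (Finset.mem_insert_of_mem hs)) _ (hmem Φ hΦ),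
      uOp_twistOp htP (χ t) χ' hr (hrT t (Finset.mem_insert_self _ _)) (e1 ▸ hΦ), map_smul,
      smul_smul, Finset.prod_insert (f := fun s => (χ s)⁻¹ (r : ZMod s)) htT, mul_comm]

variable {K : Type} [Field K] [CharZero K]

/-- An eigensymbol whose character is, at the primes of `T`, the square of a character `χ t`,
gives one with the extra character removed, the eigenvalues being multiplied by the `(χ t)⁻¹`. -/
theorem exists_twist (T : Finset ℕ) (hT : ∀ t ∈ T, t.Prime) (χ : ∀ t, DirichletCharacter K t)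
    (hχ : ∀ t ∈ T, χ t ^ 2 ≠ 1) (M : ℕ) (hM0 : M ≠ 0) (hM : ∀ t ∈ T, ¬ t ∣ M)
    (δ' : DirichletCharacter K M) (δ : DirichletCharacter K (M * ∏ t ∈ T, t))
    (hδ : ∀ d : ℤ, IsUnit (d : ZMod (M * ∏ t ∈ T, t)) →
      δ (d : ZMod (M * ∏ t ∈ T, t)) = δ' (d : ZMod M) * ∏ t ∈ T, χ t (d : ZMod t) ^ 2)
    (S : Finset ℕ) (hS : ∀ l, l.Prime → l ∣ M * ∏ t ∈ T, t → l ∈ S) (a : ℕ → K)
    (Φ : Cusp → Cusp → K) (hΦ : Φ ∈ SymbChar K δ) (hne : Φ ≠ 0)
    (ha : ∀ l, l.Prime → l ∉ S → tOpChar K δ l Φ = a l • Φ) :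
    ∃ Ψ ∈ SymbChar K (DirichletCharacter.changeLevel (dvd_mul_right M (∏ t ∈ T, t ^ 2)) δ'),
      Ψ ≠ 0 ∧ ∀ l, l.Prime → l ∉ S →
        tOpChar K (DirichletCharacter.changeLevel (dvd_mul_right M (∏ t ∈ T, t ^ 2)) δ') l Ψ =
          ((∏ t ∈ T, (χ t)⁻¹ (l : ZMod t)) * a l) • Ψ := by
  obtain ⟨F, hF1, hF2, hF3, -⟩ := exists_twistMap T hT χ hχ M hM0 hM δ' δ hδ
  exact ⟨F Φ, hF1 Φ hΦ, fun h => hne (hF2 Φ hΦ h), fun l hl hlS => by
    rw [hF3 l hl (fun h => hlS (hS l hl h)) Φ hΦ, ha l hl hlS, map_smul, smul_smul]⟩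

/-- An eigensymbol with character `∏ (χ t) ^ 2` gives one with trivial character. -/
theorem exists_twist_trivial (T : Finset ℕ) (hT : ∀ t ∈ T, t.Prime)
    (χ : ∀ t, DirichletCharacter K t) (hχ : ∀ t ∈ T, χ t ^ 2 ≠ 1) (M : ℕ) (hM0 : M ≠ 0)
    (hM : ∀ t ∈ T, ¬ t ∣ M) {L : ℕ} (hL : L = M * ∏ t ∈ T, t) (δ : DirichletCharacter K L)
    (hδ : ∀ d : ℤ, IsUnit (d : ZMod L) → δ (d : ZMod L) = ∏ t ∈ T, χ t (d : ZMod t) ^ 2)
    (S : Finset ℕ) (hS : ∀ l, l.Prime → l ∣ L → l ∈ S) (a : ℕ → K)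
    {Φ : Cusp → Cusp → K} (hΦ : Φ ∈ SymbChar K δ) (hne : Φ ≠ 0)
    (ha : ∀ l, l.Prime → l ∉ S → tOpChar K δ l Φ = a l • Φ) :
    ∃ Ψ ∈ Lev K (M * ∏ t ∈ T, t ^ 2), Ψ ≠ 0 ∧ ∀ l, l.Prime → l ∉ S →
      tOp K l Ψ = ((∏ t ∈ T, (χ t)⁻¹ (l : ZMod t)) * a l) • Ψ := by
  subst hL
  obtain ⟨Ψ, hΨ, hΨ0, hΨa⟩ := exists_twist T hT χ hχ M hM0 hM 1 δ (fun d hd => by
    rw [hδ d hd, MulChar.one_apply (isUnit_of_dvd (dvd_mul_right _ _) hd), one_mul])
    S hS a Φ hΦ hne ha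
  rw [map_one, symbChar_eq_lev] at hΨ
  refine ⟨Ψ, hΨ, hΨ0, fun l hl hlS => ?_⟩
  have hl' : ¬ l ∣ M * ∏ t ∈ T, t ^ 2 := fun h => hlS (hS l hl (by
    rcases hl.dvd_mul.mp h with h | h
    · exact h.mul_right _
    · obtain ⟨t, ht, htl⟩ := hl.prime.exists_mem_finset_dvd h
      exact ((hl.dvd_of_dvd_pow htl).trans (Finset.dvd_prod_of_mem _ ht)).mul_left _))
  rw [← tOpChar_one hl hl']
  simpa using hΨa l hl hlS

end FLTAgent.HeckePoints
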